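/-
GATE-M (S41) / S41-D-BRIDGE-MANIN, file 1 (helper14).

The bridge between helper23's Manin model (`GM/PD/ManinLattice`) and group cohomology:
for `Γ ≤ SL(2,ℤ)` with `-1 ∈ Γ`, `X := SL(2,ℤ) ⧸ Γ` (left cosets, left action),
`D := suData Γ hneg` (`D.S = ` action of `S`, `D.U = ` action of `S * T`, so `D.S ∘ D.U = ` action
of `T`), we construct

  `bridgeB : BQ (suData Γ hneg) ≃ₗ[ℤ] (Additive Γ →+ ℤ)`,   `[m] ↦ (γ ↦ c_m γ x₀)`,

where `c_m` is THE cocycle `SL(2,ℤ) → X → ℤ` with `c_m S = (x ↦ m (S • x) - m x)` and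
`c_m (S * T) = 0` (helper4's `exists_cocycle` / `cocycle_ext`, i.e. `PSL(2,ℤ) = C₂ * C₃`).
-/
import Fermat.Agent.GM.PD.Functorial
import Fermat.Agent.S16.LB.PingPongLift

set_option autoImplicit false
set_option linter.unusedSectionVars false

open scoped MatrixGroups
open ModularGroup

namespace Fermat.Agent.GM.Bridge

open Fermat.Agent.GM.PD Fermat.Agent.S16.LB.PingPong Fermat.Agent.S16.LB.PPLift

variable {Γ : Subgroup SL(2,ℤ)}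

/-! ### the `(S,U)`-set `SL(2,ℤ) ⧸ Γ` -/

theorem S_smul_S_smul (hneg : (-1 : SL(2,ℤ)) ∈ Γ) (x : SL(2,ℤ) ⧸ Γ) :
    (S : SL(2,ℤ)) • (S : SL(2,ℤ)) • x = x := by
  rw [smul_smul, S_mul_S, neg_one_smul_coset hneg]

theorem U_smul_U_smul_U_smul (hneg : (-1 : SL(2,ℤ)) ∈ Γ) (x : SL(2,ℤ) ⧸ Γ) :
    (S * T : SL(2,ℤ)) • (S * T : SL(2,ℤ)) • (S * T : SL(2,ℤ)) • x = x := by
  rw [smul_smul, smul_smul, ST_mul_ST_mul_ST, neg_one_smul_coset hneg]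

/-- The `(S,U)`-set `SL(2,ℤ) ⧸ Γ`: `S` acts by `S`, `U` acts by `S * T`. -/
def suData (Γ : Subgroup SL(2,ℤ)) (hneg : (-1 : SL(2,ℤ)) ∈ Γ) : SUData (SL(2,ℤ) ⧸ Γ) where
  S := MulAction.toPerm (S : SL(2,ℤ))
  U := MulAction.toPerm (S * T : SL(2,ℤ))
  hS := fun x => S_smul_S_smul hneg x
  hU := fun x => U_smul_U_smul_U_smul hneg x

@[simp] theorem suData_S_apply (hneg : (-1 : SL(2,ℤ)) ∈ Γ) (x : SL(2,ℤ) ⧸ Γ) :
    (suData Γ hneg).S x = (S : SL(2,ℤ)) • x := rfl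

@[simp] theorem suData_U_apply (hneg : (-1 : SL(2,ℤ)) ∈ Γ) (x : SL(2,ℤ) ⧸ Γ) :
    (suData Γ hneg).U x = (S * T : SL(2,ℤ)) • x := rfl

/-- `D.S ∘ D.U` is the action of `T`. -/
theorem suData_S_U_apply (hneg : (-1 : SL(2,ℤ)) ∈ Γ) (x : SL(2,ℤ) ⧸ Γ) :
    (suData Γ hneg).S ((suData Γ hneg).U x) = (T : SL(2,ℤ)) • x := by
  rw [suData_S_apply, suData_U_apply, smul_smul, ← mul_assoc, S_mul_S]
  have : (-1 * T : SL(2,ℤ)) = T * -1 := by rw [neg_mul, one_mul, mul_neg, mul_one]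
  rw [this, mul_smul, neg_one_smul_coset hneg]

/-! ### cocycles -/

/-- the cocycle identity (helper4's convention) -/
def IsCoc {A : Type*} [AddCommGroup A] (c : SL(2,ℤ) → SL(2,ℤ) ⧸ Γ → A) : Prop :=
  ∀ g' g x, c (g' * g) x = c g x + c g' (g • x)

theorem IsCoc.one {A : Type*} [AddCommGroup A] {c : SL(2,ℤ) → SL(2,ℤ) ⧸ Γ → A} (hc : IsCoc c)
    (x : SL(2,ℤ) ⧸ Γ) : c 1 x = 0 := by
  have h := hc 1 1 x
  rw [one_mul, one_smul] at h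
  exact (add_left_cancel (a := c 1 x) ((add_zero _).trans h)).symm

theorem IsCoc.neg_one {c : SL(2,ℤ) → SL(2,ℤ) ⧸ Γ → ℤ} (hc : IsCoc c)
    (hneg : (-1 : SL(2,ℤ)) ∈ Γ) (x : SL(2,ℤ) ⧸ Γ) : c (-1) x = 0 := by
  have h := hc (-1) (-1) x
  rw [neg_one_smul_coset hneg] at h
  have h1 : ((-1 : SL(2,ℤ)) * -1) = 1 := by rw [neg_mul_neg, one_mul]
  rw [h1, hc.one] at h
  omega

theorem IsCoc.add {A : Type*} [AddCommGroup A] {c c' : SL(2,ℤ) → SL(2,ℤ) ⧸ Γ → A}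
    (hc : IsCoc c) (hc' : IsCoc c') : IsCoc (c + c') := by
  intro g' g x
  simp only [Pi.add_apply]
  rw [hc g' g x, hc' g' g x]
  abel

theorem IsCoc.sub {A : Type*} [AddCommGroup A] {c c' : SL(2,ℤ) → SL(2,ℤ) ⧸ Γ → A}
    (hc : IsCoc c) (hc' : IsCoc c') : IsCoc (c - c') := by
  intro g' g x
  simp only [Pi.sub_apply]
  rw [hc g' g x, hc' g' g x]
  abel

theorem IsCoc.zsmul {c : SL(2,ℤ) → SL(2,ℤ) ⧸ Γ → ℤ} (r : ℤ)
    (hc : IsCoc c) : IsCoc (fun g x => r * c g x) := by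
  intro g' g x
  simp only
  rw [hc g' g x, mul_add]

theorem isCoc_zero {A : Type*} [AddCommGroup A] :
    IsCoc (0 : SL(2,ℤ) → SL(2,ℤ) ⧸ Γ → A) := by
  intro g' g x
  simp

/-- the coboundary of a function -/
def cob {A : Type*} [AddCommGroup A] (m : SL(2,ℤ) ⧸ Γ → A) : SL(2,ℤ) → SL(2,ℤ) ⧸ Γ → A :=
  fun g x => m (g • x) - m x

theorem isCoc_cob {A : Type*} [AddCommGroup A] (m : SL(2,ℤ) ⧸ Γ → A) : IsCoc (cob m) := by
  intro g' g x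
  simp only [cob, mul_smul]
  abel

theorem IsCoc.ext {A : Type*} [AddCommGroup A] {c c' : SL(2,ℤ) → SL(2,ℤ) ⧸ Γ → A}
    (hc : IsCoc c) (hc' : IsCoc c') (hS : c S = c' S) (hU : c (S * T) = c' (S * T)) : c = c' :=
  cocycle_ext c c' hc hc' hS hU

/-- the value at `S` of the cocycle of `m` -/
def aOf (m : SL(2,ℤ) ⧸ Γ → ℤ) : SL(2,ℤ) ⧸ Γ → ℤ := fun x => m ((S : SL(2,ℤ)) • x) - m x

theorem aOf_rel (hneg : (-1 : SL(2,ℤ)) ∈ Γ) (m : SL(2,ℤ) ⧸ Γ → ℤ) (x : SL(2,ℤ) ⧸ Γ) :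
    aOf m x + aOf m ((S : SL(2,ℤ)) • x) = 0 := by
  simp only [aOf, S_smul_S_smul hneg]
  ring

theorem exists_cocOf (hneg : (-1 : SL(2,ℤ)) ∈ Γ) (m : SL(2,ℤ) ⧸ Γ → ℤ) :
    ∃ c : SL(2,ℤ) → SL(2,ℤ) ⧸ Γ → ℤ, IsCoc c ∧ c S = aOf m ∧ c (S * T) = 0 :=
  exists_cocycle hneg (aOf m) 0 (aOf_rel hneg m) (by intro x; simp)

/-- THE cocycle with `c S = aOf m`, `c (S*T) = 0`. -/
noncomputable def cocOf (hneg : (-1 : SL(2,ℤ)) ∈ Γ) (m : SL(2,ℤ) ⧸ Γ → ℤ) :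
    SL(2,ℤ) → SL(2,ℤ) ⧸ Γ → ℤ := Classical.choose (exists_cocOf hneg m)

theorem isCoc_cocOf (hneg : (-1 : SL(2,ℤ)) ∈ Γ) (m : SL(2,ℤ) ⧸ Γ → ℤ) :
    IsCoc (cocOf hneg m) := (Classical.choose_spec (exists_cocOf hneg m)).1

theorem cocOf_S (hneg : (-1 : SL(2,ℤ)) ∈ Γ) (m : SL(2,ℤ) ⧸ Γ → ℤ) :
    cocOf hneg m S = aOf m := (Classical.choose_spec (exists_cocOf hneg m)).2.1

theorem cocOf_U (hneg : (-1 : SL(2,ℤ)) ∈ Γ) (m : SL(2,ℤ) ⧸ Γ → ℤ) :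
    cocOf hneg m (S * T) = 0 := (Classical.choose_spec (exists_cocOf hneg m)).2.2

/-- characterisation of `cocOf` -/
theorem cocOf_eq (hneg : (-1 : SL(2,ℤ)) ∈ Γ) (m : SL(2,ℤ) ⧸ Γ → ℤ)
    {c : SL(2,ℤ) → SL(2,ℤ) ⧸ Γ → ℤ} (hc : IsCoc c) (hS : c S = aOf m) (hU : c (S * T) = 0) :
    cocOf hneg m = c :=
  (isCoc_cocOf hneg m).ext hc ((cocOf_S hneg m).trans hS.symm) ((cocOf_U hneg m).trans hU.symm)

theorem aOf_add (m m' : SL(2,ℤ) ⧸ Γ → ℤ) : aOf (m + m') = aOf m + aOf m' := by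
  funext x; simp only [aOf, Pi.add_apply]; ring

theorem aOf_smul (r : ℤ) (m : SL(2,ℤ) ⧸ Γ → ℤ) : aOf (r • m) = fun x => r * aOf m x := by
  funext x; simp only [aOf, Pi.smul_apply, smul_eq_mul]; ring

theorem cocOf_add (hneg : (-1 : SL(2,ℤ)) ∈ Γ) (m m' : SL(2,ℤ) ⧸ Γ → ℤ) :
    cocOf hneg (m + m') = cocOf hneg m + cocOf hneg m' := by
  apply cocOf_eq hneg _ ((isCoc_cocOf hneg m).add (isCoc_cocOf hneg m'))
  · rw [Pi.add_apply, cocOf_S, cocOf_S, aOf_add]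
  · rw [Pi.add_apply, cocOf_U, cocOf_U, add_zero]

theorem cocOf_smul (hneg : (-1 : SL(2,ℤ)) ∈ Γ) (r : ℤ) (m : SL(2,ℤ) ⧸ Γ → ℤ) :
    cocOf hneg (r • m) = fun g x => r * cocOf hneg m g x := by
  apply cocOf_eq hneg _ ((isCoc_cocOf hneg m).zsmul r)
  · funext x
    show r * cocOf hneg m S x = aOf (r • m) x
    rw [cocOf_S, aOf_smul]
  · funext x
    show r * cocOf hneg m (S * T) x = 0
    rw [cocOf_U]; simp

/-- on `U`-invariant functions `cocOf` is the coboundary -/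
theorem cocOf_of_invU (hneg : (-1 : SL(2,ℤ)) ∈ Γ) {m : SL(2,ℤ) ⧸ Γ → ℤ}
    (hm : ∀ x, m ((S * T : SL(2,ℤ)) • x) = m x) : cocOf hneg m = cob m := by
  apply cocOf_eq hneg _ (isCoc_cob m)
  · rfl
  · funext x
    simp only [cob, hm x, sub_self, Pi.zero_apply]

/-- on `S`-invariant functions `cocOf` vanishes -/
theorem cocOf_of_invS (hneg : (-1 : SL(2,ℤ)) ∈ Γ) {m : SL(2,ℤ) ⧸ Γ → ℤ}
    (hm : ∀ x, m ((S : SL(2,ℤ)) • x) = m x) : cocOf hneg m = 0 := by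
  apply cocOf_eq hneg _ isCoc_zero
  · funext x
    simp only [aOf, hm x, sub_self, Pi.zero_apply]
  · rfl

/-! ### the bridge map -/

/-- restriction of a cocycle to `Γ` at the base coset -/
def resCoc {A : Type*} [AddCommGroup A] (c : SL(2,ℤ) → SL(2,ℤ) ⧸ Γ → A) (hc : IsCoc c) :
    Additive Γ →+ A where
  toFun γ := c ((Additive.toMul γ : Γ) : SL(2,ℤ)) (x0 Γ)
  map_zero' := hc.one _
  map_add' γ γ' := by
    show c (((Additive.toMul γ * Additive.toMul γ' : Γ)) : SL(2,ℤ)) (x0 Γ) = _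
    rw [Subgroup.coe_mul, hc, smul_x0_of_mem (Additive.toMul γ').2, add_comm]

@[simp] theorem resCoc_apply {A : Type*} [AddCommGroup A] (c : SL(2,ℤ) → SL(2,ℤ) ⧸ Γ → A)
    (hc : IsCoc c) (γ : Γ) : resCoc c hc (Additive.ofMul γ) = c (γ : SL(2,ℤ)) (x0 Γ) := rfl

theorem resCoc_cob {A : Type*} [AddCommGroup A] (m : SL(2,ℤ) ⧸ Γ → A) :
    resCoc (cob m) (isCoc_cob m) = 0 := by
  refine DFunLike.ext _ _ fun γ => ?_
  show m (((Additive.toMul γ : Γ) : SL(2,ℤ)) • x0 Γ) - m (x0 Γ) = 0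
  rw [smul_x0_of_mem (Additive.toMul γ).2, sub_self]

theorem isCoc_shap {A : Type*} [AddCommGroup A] (φ : Additive Γ →+ A) : IsCoc (shap φ) :=
  fun g' g x => shap_mul φ g' g x

theorem resCoc_shap {A : Type*} [AddCommGroup A] (φ : Additive Γ →+ A) :
    resCoc (shap φ) (isCoc_shap φ) = φ := by
  refine DFunLike.ext _ _ fun γ => ?_
  exact shap_mem_x0 φ (Additive.toMul γ)

/-- the bridge map on functions: `m ↦ (γ ↦ c_m γ x₀)` -/
noncomputable def bridgeFun (hneg : (-1 : SL(2,ℤ)) ∈ Γ) :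
    (SL(2,ℤ) ⧸ Γ → ℤ) →ₗ[ℤ] (Additive Γ →+ ℤ) where
  toFun m := resCoc (cocOf hneg m) (isCoc_cocOf hneg m)
  map_add' m m' := by
    refine DFunLike.ext _ _ fun γ => ?_
    show cocOf hneg (m + m') _ _ = cocOf hneg m _ _ + cocOf hneg m' _ _
    rw [cocOf_add]; rfl
  map_smul' r m := by
    refine DFunLike.ext _ _ fun γ => ?_
    show cocOf hneg (r • m) _ _ = r • cocOf hneg m _ _
    rw [cocOf_smul]; rfl

theorem bridgeFun_apply (hneg : (-1 : SL(2,ℤ)) ∈ Γ) (m : SL(2,ℤ) ⧸ Γ → ℤ) (γ : Γ) :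
    bridgeFun hneg m (Additive.ofMul γ) = cocOf hneg m (γ : SL(2,ℤ)) (x0 Γ) := rfl

/-- a cocycle whose restriction to `Γ` vanishes is a coboundary -/
theorem eq_cob_of_resCoc_eq_zero {A : Type*} [AddCommGroup A]
    {c : SL(2,ℤ) → SL(2,ℤ) ⧸ Γ → A} (hc : IsCoc c) (h : resCoc c hc = 0) :
    c = cob (fun x => c x.out (x0 Γ)) := by
  funext g x
  show c g x = c (g • x).out (x0 Γ) - c x.out (x0 Γ)
  have h1 := out_mul_kap (Γ := Γ) (g * x.out)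
  rw [mk_mul_out] at h1
  have h2 : c (g * x.out) (x0 Γ) = c x.out (x0 Γ) + c g x := by
    rw [hc]
    congr 2
    show x.out • ((1 : SL(2,ℤ)) : SL(2,ℤ) ⧸ Γ) = x
    rw [smul_mk, mul_one]
    exact QuotientGroup.out_eq' x
  have h3 : c (g * x.out) (x0 Γ) = c (g • x).out (x0 Γ) := by
    rw [← h1, hc, smul_x0_of_mem (kap Γ (g * x.out)).2]
    have := DFunLike.congr_fun h (Additive.ofMul (kap Γ (g * x.out)))
    rw [resCoc_apply] at this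
    rw [this]
    simp
  rw [← h3, h2]
  abel

variable [Fintype (SL(2,ℤ) ⧸ Γ)] [DecidableEq (SL(2,ℤ) ⧸ Γ)]

theorem cSub_le_ker_bridgeFun (hneg : (-1 : SL(2,ℤ)) ∈ Γ) :
    cSub (suData Γ hneg) ≤ LinearMap.ker (bridgeFun hneg) := by
  refine sup_le ?_ ?_
  · intro m hm
    rw [LinearMap.mem_ker]
    refine DFunLike.ext _ _ fun γ => ?_
    show cocOf hneg m _ _ = 0
    rw [cocOf_of_invS hneg (fun x => hm x)]
    rfl
  · intro m hm
    rw [LinearMap.mem_ker]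
    have h1 : cocOf hneg m = cob m := cocOf_of_invU hneg (fun x => hm x)
    refine DFunLike.ext _ _ fun γ => ?_
    show cocOf hneg m _ _ = 0
    rw [h1]
    exact DFunLike.congr_fun (resCoc_cob m) γ

theorem ker_bridgeFun_le_cSub (hneg : (-1 : SL(2,ℤ)) ∈ Γ) :
    LinearMap.ker (bridgeFun hneg) ≤ cSub (suData Γ hneg) := by
  intro m hm
  rw [LinearMap.mem_ker] at hm
  have hcob := eq_cob_of_resCoc_eq_zero (isCoc_cocOf hneg m) hm
  set n : SL(2,ℤ) ⧸ Γ → ℤ := fun x => cocOf hneg m x.out (x0 Γ) with hn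
  have hS : ∀ x, (m - n) ((S : SL(2,ℤ)) • x) = (m - n) x := by
    intro x
    have := congrFun (congrFun hcob S) x
    rw [cocOf_S] at this
    simp only [aOf, cob] at this
    simp only [Pi.sub_apply]
    omega
  have hU : ∀ x, n ((S * T : SL(2,ℤ)) • x) = n x := by
    intro x
    have := congrFun (congrFun hcob (S * T)) x
    rw [cocOf_U] at this
    simp only [cob, Pi.zero_apply] at this
    omega
  refine Submodule.mem_sup.2 ⟨m - n, fun x => hS x, n, fun x => hU x, ?_⟩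
  abel

theorem ker_bridgeFun (hneg : (-1 : SL(2,ℤ)) ∈ Γ) :
    LinearMap.ker (bridgeFun hneg) = cSub (suData Γ hneg) :=
  le_antisymm (ker_bridgeFun_le_cSub hneg) (cSub_le_ker_bridgeFun hneg)

/-! ### surjectivity: `H¹(C₂, M) = H¹(C₃, M) = 0` by explicit potentials -/

/-- potential along `S` -/
def potS (a : SL(2,ℤ) ⧸ Γ → ℤ) : SL(2,ℤ) ⧸ Γ → ℤ := fun x => max 0 (-(a x))

theorem potS_spec {a : SL(2,ℤ) ⧸ Γ → ℤ} (ha : ∀ x, a x + a ((S : SL(2,ℤ)) • x) = 0)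
    (x : SL(2,ℤ) ⧸ Γ) : potS a ((S : SL(2,ℤ)) • x) - potS a x = a x := by
  have := ha x
  simp only [potS]
  omega

/-- potential along `U = S * T` -/
def potU (b : SL(2,ℤ) ⧸ Γ → ℤ) : SL(2,ℤ) ⧸ Γ → ℤ :=
  fun x => max 0 (max (-(b x)) (b ((S * T : SL(2,ℤ)) • (S * T : SL(2,ℤ)) • x)))

theorem potU_spec (hneg : (-1 : SL(2,ℤ)) ∈ Γ) {b : SL(2,ℤ) ⧸ Γ → ℤ}
    (hb : ∀ x, b x + b ((S * T : SL(2,ℤ)) • x)
      + b ((S * T : SL(2,ℤ)) • (S * T : SL(2,ℤ)) • x) = 0)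
    (x : SL(2,ℤ) ⧸ Γ) : potU b ((S * T : SL(2,ℤ)) • x) - potU b x = b x := by
  have := hb x
  simp only [potU, U_smul_U_smul_U_smul hneg]
  omega

theorem bridgeFun_surjective (hneg : (-1 : SL(2,ℤ)) ∈ Γ) :
    Function.Surjective (bridgeFun (Γ := Γ) hneg) := by
  intro φ
  have hc := isCoc_shap φ
  have ha : ∀ x, shap φ S x + shap φ S ((S : SL(2,ℤ)) • x) = 0 := by
    intro x
    have h := hc S S x
    rw [S_mul_S, hc.neg_one hneg] at h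
    omega
  have hb : ∀ x, shap φ (S * T) x + shap φ (S * T) ((S * T : SL(2,ℤ)) • x)
      + shap φ (S * T) ((S * T : SL(2,ℤ)) • (S * T : SL(2,ℤ)) • x) = 0 := by
    intro x
    have h1 := hc (S * T) (S * T) x
    have h2 := hc (S * T) ((S * T) * (S * T)) x
    have e1 : (S * T : SL(2,ℤ)) * ((S * T) * (S * T)) = -1 := by
      rw [← mul_assoc]; exact ST_mul_ST_mul_ST
    have e2 : ((S * T) * (S * T) : SL(2,ℤ)) • x = (S * T : SL(2,ℤ)) • (S * T : SL(2,ℤ)) • x :=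
      mul_smul _ _ _
    rw [e1, hc.neg_one hneg, h1, e2] at h2
    omega
  set mS := potS (shap φ S) with hmS
  set mU := potU (shap φ (S * T)) with hmU
  refine ⟨mS - mU, ?_⟩
  have hcoc : cocOf hneg (mS - mU) = shap φ - cob mU := by
    apply cocOf_eq hneg _ (hc.sub (isCoc_cob mU))
    · funext x
      have := potS_spec ha x
      simp only [Pi.sub_apply, cob, aOf]
      rw [← hmS] at this
      omega
    · funext x
      have := potU_spec hneg hb x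
      simp only [Pi.sub_apply, cob, Pi.zero_apply]
      rw [← hmU] at this
      omega
  refine DFunLike.ext _ _ fun γ => ?_
  show cocOf hneg (mS - mU) _ _ = _
  rw [hcoc]
  show shap φ _ (x0 Γ) - (mU (((Additive.toMul γ : Γ) : SL(2,ℤ)) • x0 Γ) - mU (x0 Γ)) = _
  rw [smul_x0_of_mem (Additive.toMul γ).2, sub_self, sub_zero]
  exact shap_mem_x0 φ (Additive.toMul γ)

/-- **The bridge `H¹` (model) `≃ Hom(Γ, ℤ)`.** -/
noncomputable def bridgeB (hneg : (-1 : SL(2,ℤ)) ∈ Γ) :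
    BQ (suData Γ hneg) ≃ₗ[ℤ] (Additive Γ →+ ℤ) :=
  (Submodule.quotEquivOfEq _ _ (ker_bridgeFun hneg).symm).trans
    (LinearMap.quotKerEquivOfSurjective (bridgeFun hneg) (bridgeFun_surjective hneg))

theorem bridgeB_mk (hneg : (-1 : SL(2,ℤ)) ∈ Γ) (m : SL(2,ℤ) ⧸ Γ → ℤ) :
    bridgeB hneg (Submodule.Quotient.mk m) = bridgeFun hneg m := rfl

theorem bridgeB_mk_apply (hneg : (-1 : SL(2,ℤ)) ∈ Γ) (m : SL(2,ℤ) ⧸ Γ → ℤ) (γ : Γ) :
    bridgeB hneg (Submodule.Quotient.mk m) (Additive.ofMul γ)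
      = cocOf hneg m (γ : SL(2,ℤ)) (x0 Γ) := rfl

end Fermat.Agent.GM.Bridge
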