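/-
GATE-M (S41) / S41-D-BRIDGE-MANIN, file 2 (helper14).

The bridge `bridgeB : BQ (suData Γ hneg) ≃ₗ[ℤ] (Additive Γ →+ ℤ)` maps the parabolic classes
`PQ D = (parSub D).map mkQ` of helper23's Manin model ONTO the prelude's
`parabolicHoms ℤ Γ ℤ` (homs killing every `γ ∈ Γ` with `trace² = 4`):

  `bridgeFun_mem_parabolicHoms_iff`,  `map_bridgeB_PQ`,  `bridgeP : PQ D ≃ₗ[ℤ] parabolicHoms ℤ Γ ℤ`.
-/
import Fermat.Agent.GM.Bridge.Model

set_option autoImplicit false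
set_option linter.unusedSectionVars false

open scoped MatrixGroups
open ModularGroup ModularCurve.Period

namespace Fermat.Agent.GM.Bridge

open Fermat.Agent.GM.PD Fermat.Agent.S16.LB.PingPong Fermat.Agent.S16.LB.PPLift

variable {Γ : Subgroup SL(2,ℤ)}

/-! ### general cocycle lemmas -/

section Coc

variable {A : Type*} [AddCommGroup A] {c c' : SL(2,ℤ) → SL(2,ℤ) ⧸ Γ → A}

theorem IsCoc.inv (hc : IsCoc c) (g : SL(2,ℤ)) (x : SL(2,ℤ) ⧸ Γ) :
    c g⁻¹ x = - c g (g⁻¹ • x) := by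
  have h := hc g g⁻¹ x
  rw [mul_inv_cancel, hc.one] at h
  exact eq_neg_of_add_eq_zero_left h.symm

/-- the locus where two cocycles agree is a subgroup -/
def eqLocusCoc (hc : IsCoc c) (hc' : IsCoc c') : Subgroup SL(2,ℤ) where
  carrier := {g | c g = c' g}
  one_mem' := by
    show c 1 = c' 1
    funext x
    rw [hc.one, hc'.one]
  mul_mem' := by
    intro g' g hg' hg
    show c (g' * g) = c' (g' * g)
    funext x
    rw [hc, hc', show c g = c' g from hg, show c g' = c' g' from hg']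
  inv_mem' := by
    intro g hg
    show c g⁻¹ = c' g⁻¹
    funext x
    rw [hc.inv, hc'.inv, show c g = c' g from hg]

theorem mem_eqLocusCoc (hc : IsCoc c) (hc' : IsCoc c') (g : SL(2,ℤ)) :
    g ∈ eqLocusCoc hc hc' ↔ c g = c' g := Iff.rfl

/-- conjugation: if `t` fixes `g⁻¹ • x` then `c (g * t * g⁻¹) x = c t (g⁻¹ • x)` -/
theorem IsCoc.conj (hc : IsCoc c) (g t : SL(2,ℤ)) (x : SL(2,ℤ) ⧸ Γ)
    (ht : t • (g⁻¹ • x) = g⁻¹ • x) : c (g * t * g⁻¹) x = c t (g⁻¹ • x) := by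
  rw [hc (g * t) g⁻¹ x, hc g t (g⁻¹ • x), ht, hc.inv g x]
  abel

/-- powers of one element -/
theorem IsCoc.pow_succ (hc : IsCoc c) (t : SL(2,ℤ)) (k : ℕ) (x : SL(2,ℤ) ⧸ Γ) :
    c (t ^ (k + 1)) x = c (t ^ k) x + c t (t ^ k • x) := by
  rw [_root_.pow_succ', hc]

theorem IsCoc.pow_eq_sum (hc : IsCoc c) (t : SL(2,ℤ)) (k : ℕ) (x : SL(2,ℤ) ⧸ Γ) :
    c (t ^ k) x = ∑ i ∈ Finset.range k, c t (t ^ i • x) := by
  induction k with
  | zero => simp [hc.one]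
  | succ k ih => rw [hc.pow_succ, ih, Finset.sum_range_succ]

end Coc

/-- index shift for weighted sums -/
theorem sum_shift (f : ℕ → ℤ) (K : ℕ) :
    ∑ i ∈ Finset.range K, (i : ℤ) * f (i + 1)
      = ∑ i ∈ Finset.range K, (i : ℤ) * f i + (K : ℤ) * f K - ∑ i ∈ Finset.range K, f (i + 1) := by
  induction K with
  | zero => simp
  | succ K ih =>
    rw [Finset.sum_range_succ, Finset.sum_range_succ, Finset.sum_range_succ, ih]
    push_cast
    ring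

/-! ### matrices with `c = 0` -/

theorem eq_T_zpow_or_neg_of_c_eq_zero (g : SL(2,ℤ)) (h : g 1 0 = 0) :
    ∃ k : ℤ, g = T ^ k ∨ g = -(T ^ k) := by
  have hdet : g 0 0 * g 1 1 - g 0 1 * g 1 0 = 1 := by
    have := g.det_coe
    rw [Matrix.det_fin_two] at this
    exact this
  rw [h, mul_zero, sub_zero] at hdet
  rcases Int.eq_one_or_neg_one_of_mul_eq_one' hdet with ⟨h0, h1⟩ | ⟨h0, h1⟩
  · refine ⟨g 0 1, Or.inl ?_⟩
    ext i j
    rw [coe_T_zpow]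
    fin_cases i <;> fin_cases j <;> simp [h0, h1, h]
  · refine ⟨-(g 0 1), Or.inr ?_⟩
    ext i j
    rw [Matrix.SpecialLinearGroup.coe_neg, coe_T_zpow]
    fin_cases i <;> fin_cases j <;> simp [h0, h1, h]

theorem trace_T_zpow (k : ℤ) : ((T ^ k : SL(2,ℤ)) : Matrix (Fin 2) (Fin 2) ℤ).trace = 2 := by
  rw [coe_T_zpow, Matrix.trace_fin_two]
  simp

theorem trace_conj (g t : SL(2,ℤ)) :
    ((g * t * g⁻¹ : SL(2,ℤ)) : Matrix (Fin 2) (Fin 2) ℤ).trace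
      = (t : Matrix (Fin 2) (Fin 2) ℤ).trace := by
  have h2 : (g⁻¹ : SL(2,ℤ)).1 * g.1 = 1 := by
    rw [← Matrix.SpecialLinearGroup.coe_mul, inv_mul_cancel]; rfl
  rw [Matrix.SpecialLinearGroup.coe_mul, Matrix.SpecialLinearGroup.coe_mul,
    Matrix.trace_mul_cycle, h2, one_mul]

/-! ### parabolic `⇐` -/

variable [Fintype (SL(2,ℤ) ⧸ Γ)] [DecidableEq (SL(2,ℤ) ⧸ Γ)]

/-- the value of `cocOf m` at `T` -/
theorem cocOf_T (hneg : (-1 : SL(2,ℤ)) ∈ Γ) (m : SL(2,ℤ) ⧸ Γ → ℤ) (x : SL(2,ℤ) ⧸ Γ) :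
    cocOf hneg m T x = m ((T : SL(2,ℤ)) • x) - m ((S * T : SL(2,ℤ)) • x) := by
  have h := isCoc_cocOf hneg m S T x
  rw [cocOf_U, cocOf_S] at h
  simp only [aOf, Pi.zero_apply, smul_smul] at h
  omega

theorem bridgeFun_mem_parabolicHoms_of_mem (hneg : (-1 : SL(2,ℤ)) ∈ Γ)
    {m : SL(2,ℤ) ⧸ Γ → ℤ} (hm : m ∈ parSub (suData Γ hneg)) :
    bridgeFun hneg m ∈ parabolicHoms ℤ Γ ℤ := by
  obtain ⟨h, hh⟩ := hm
  rw [mem_parabolicHoms_iff]
  intro γ hγ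
  set c := cocOf hneg m with hcdef
  have hc : IsCoc c := isCoc_cocOf hneg m
  set n : SL(2,ℤ) ⧸ Γ → ℤ := m - h with hn
  -- `c` and `cob n` agree on `T` and on `-1`
  have hT : c T = cob n T := by
    funext x
    have h1 := hh x
    rw [suData_S_U_apply, suData_U_apply] at h1
    rw [hcdef, cocOf_T]
    simp only [cob, hn, Pi.sub_apply]
    omega
  have hneg1 : c (-1) = cob n (-1) := by
    funext x
    rw [hc.neg_one hneg]
    simp only [cob, neg_one_smul_coset hneg, sub_self]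
  set E := eqLocusCoc hc (isCoc_cob n) with hE
  have hTE : ∀ k : ℤ, T ^ k ∈ E := fun k => E.zpow_mem hT k
  have hnegE : ∀ k : ℤ, -(T ^ k) ∈ E := by
    intro k
    have : -(T ^ k : SL(2,ℤ)) = -1 * T ^ k := by rw [neg_mul, one_mul]
    rw [this]
    exact E.mul_mem hneg1 (hTE k)
  obtain ⟨δ, hδ⟩ := Fermat.Agent.S21_helper65.exists_conj_upper (γ : SL(2,ℤ)) hγ
  obtain ⟨k, hk⟩ := eq_T_zpow_or_neg_of_c_eq_zero _ hδ
  set t : SL(2,ℤ) := δ⁻¹ * γ * δ with ht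
  have htE : t ∈ E := by
    rcases hk with hk | hk
    · rw [hk]; exact hTE k
    · rw [hk]; exact hnegE k
  have hγt : (γ : SL(2,ℤ)) = δ * t * δ⁻¹ := by rw [ht]; group
  have hfix : t • (δ⁻¹ • x0 Γ) = δ⁻¹ • x0 Γ := by
    rw [ht, smul_smul, mul_assoc, mul_assoc, mul_inv_cancel, mul_one, mul_smul,
      smul_x0_of_mem γ.2]
  show c ((γ : SL(2,ℤ))) (x0 Γ) = 0
  rw [hγt, hc.conj δ t (x0 Γ) hfix, (mem_eqLocusCoc hc (isCoc_cob n) t).1 htE]
  simp only [cob, hfix, sub_self]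

/-! ### parabolic `⇒` -/

theorem bridgeFun_parabolic_imp_mem (hneg : (-1 : SL(2,ℤ)) ∈ Γ)
    {m : SL(2,ℤ) ⧸ Γ → ℤ} (hm : bridgeFun hneg m ∈ parabolicHoms ℤ Γ ℤ) :
    m ∈ parSub (suData Γ hneg) := by
  rw [mem_parabolicHoms_iff] at hm
  set c := cocOf hneg m with hcdef
  have hc : IsCoc c := isCoc_cocOf hneg m
  -- a positive `N` with `T ^ N` acting trivially
  set σ : Equiv.Perm (SL(2,ℤ) ⧸ Γ) := MulAction.toPerm (T : SL(2,ℤ)) with hσ
  set N := orderOf σ with hN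
  have hNpos : 0 < N := orderOf_pos σ
  have hTN : ∀ x : SL(2,ℤ) ⧸ Γ, (T ^ N : SL(2,ℤ)) • x = x := by
    intro x
    have h1 : σ ^ N = 1 := pow_orderOf_eq_one σ
    have h2 : σ ^ N = MulAction.toPerm ((T : SL(2,ℤ)) ^ N) :=
      (map_pow (MulAction.toPermHom SL(2,ℤ) (SL(2,ℤ) ⧸ Γ)) T N).symm
    have h3 := congrArg (fun τ : Equiv.Perm (SL(2,ℤ) ⧸ Γ) => τ x) (h2.symm.trans h1)
    simpa using h3
  -- `c (T^N) x = 0` for all `x`
  have hzero : ∀ x : SL(2,ℤ) ⧸ Γ, c (T ^ N) x = 0 := by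
    intro x
    set g : SL(2,ℤ) := x.out with hg
    have hgx : g • x0 Γ = x := by
      show g • ((1 : SL(2,ℤ)) : SL(2,ℤ) ⧸ Γ) = x
      rw [smul_mk, mul_one]
      exact QuotientGroup.out_eq' x
    have hmem : g⁻¹ * T ^ N * g ∈ Γ := by
      rw [← mk_eq_x0_iff]
      have h1 : ((g⁻¹ * T ^ N * g : SL(2,ℤ)) : SL(2,ℤ) ⧸ Γ) = (g⁻¹ * T ^ N * g) • x0 Γ := by
        rw [x0, smul_mk, mul_one]
      rw [h1, mul_smul, mul_smul, hgx, hTN, ← hgx, smul_smul, inv_mul_cancel, one_smul]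
    have htr : (((⟨g⁻¹ * T ^ N * g, hmem⟩ : Γ) : SL(2,ℤ)) : Matrix (Fin 2) (Fin 2) ℤ).trace ^ 2
        = 4 := by
      have := trace_conj g⁻¹ (T ^ N)
      rw [inv_inv] at this
      show ((g⁻¹ * T ^ N * g : SL(2,ℤ)) : Matrix (Fin 2) (Fin 2) ℤ).trace ^ 2 = 4
      rw [this]
      have h2 := trace_T_zpow (N : ℤ)
      rw [zpow_natCast] at h2
      rw [h2]; norm_num
    have h0 := hm ⟨g⁻¹ * T ^ N * g, hmem⟩ htr
    rw [bridgeFun_apply] at h0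
    have hfix : (T ^ N : SL(2,ℤ)) • ((g⁻¹)⁻¹ • x0 Γ) = (g⁻¹)⁻¹ • x0 Γ := hTN _
    have := hc.conj g⁻¹ (T ^ N) (x0 Γ) hfix
    rw [inv_inv] at this
    rw [← hcdef] at h0
    rw [hgx] at this
    rw [← this]
    exact h0
  -- the weighted sum
  set n : SL(2,ℤ) ⧸ Γ → ℤ := fun x => ∑ i ∈ Finset.range N, (i : ℤ) * c T (T ^ i • x) with hn
  have hkey : ∀ x, n ((T : SL(2,ℤ)) • x) - n x = (N : ℤ) * c T x := by
    intro x
    have hsum : ∑ i ∈ Finset.range N, c T (T ^ i • x) = 0 := by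
      rw [← hc.pow_eq_sum]; exact hzero x
    have h1 : n ((T : SL(2,ℤ)) • x)
        = ∑ i ∈ Finset.range N, (i : ℤ) * c T (T ^ (i + 1) • x) := by
      simp only [hn]
      refine Finset.sum_congr rfl fun i _ => ?_
      rw [smul_smul, ← _root_.pow_succ]
    have h2 := sum_shift (fun i => c T (T ^ i • x)) N
    have h4 : ∑ i ∈ Finset.range N, c T (T ^ (i + 1) • x)
        = ∑ i ∈ Finset.range N, c T (T ^ i • x) + c T (T ^ N • x) - c T (T ^ 0 • x) := by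
      have := Finset.sum_range_succ' (fun i => c T (T ^ i • x)) N
      have h5 := Finset.sum_range_succ (fun i => c T (T ^ i • x)) N
      linarith
    rw [h1, h2, h4, hsum, hTN x, pow_zero, one_smul]
    simp only [hn]
    ring
  -- `N • m ∈ parSub`, then saturation
  have hNm : (N : ℤ) • m ∈ parSub (suData Γ hneg) := by
    refine ⟨(N : ℤ) • m - n, fun x => ?_⟩
    rw [suData_S_U_apply, suData_U_apply]
    have h1 := hkey x
    rw [hcdef, cocOf_T] at h1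
    simp only [Pi.smul_apply, Pi.sub_apply, smul_eq_mul]
    linarith
  exact parSub_saturated (suData Γ hneg) (N : ℤ) m (by exact_mod_cast hNpos.ne') hNm

theorem bridgeFun_mem_parabolicHoms_iff (hneg : (-1 : SL(2,ℤ)) ∈ Γ) (m : SL(2,ℤ) ⧸ Γ → ℤ) :
    bridgeFun hneg m ∈ parabolicHoms ℤ Γ ℤ ↔ m ∈ parSub (suData Γ hneg) :=
  ⟨bridgeFun_parabolic_imp_mem hneg, bridgeFun_mem_parabolicHoms_of_mem hneg⟩

/-- **`bridgeB` maps the parabolic classes of the model onto `parabolicHoms ℤ Γ ℤ`.** -/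
theorem map_bridgeB_PQ (hneg : (-1 : SL(2,ℤ)) ∈ Γ) :
    (PQ (suData Γ hneg)).map (bridgeB hneg : BQ (suData Γ hneg) →ₗ[ℤ] (Additive Γ →+ ℤ))
      = parabolicHoms ℤ Γ ℤ := by
  rw [show PQ (suData Γ hneg) = (parSub (suData Γ hneg)).map (cSub (suData Γ hneg)).mkQ from
    range_jMap_eq (suData Γ hneg)]
  apply le_antisymm
  · rintro _ ⟨_, ⟨m, hm, rfl⟩, rfl⟩
    exact bridgeFun_mem_parabolicHoms_of_mem hneg hm
  · intro φ hφ
    obtain ⟨m, rfl⟩ := bridgeFun_surjective hneg φ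
    exact ⟨Submodule.Quotient.mk m, ⟨m, bridgeFun_parabolic_imp_mem hneg hφ, rfl⟩, rfl⟩

theorem bridgeB_mem_parabolicHoms_iff (hneg : (-1 : SL(2,ℤ)) ∈ Γ) (b : BQ (suData Γ hneg)) :
    bridgeB hneg b ∈ parabolicHoms ℤ Γ ℤ ↔ b ∈ PQ (suData Γ hneg) := by
  rw [← map_bridgeB_PQ hneg]
  constructor
  · rintro ⟨b', hb', h⟩
    have : b' = b := (bridgeB hneg).injective h
    rwa [← this]
  · intro hb
    exact ⟨b, hb, rfl⟩

/-- **The bridge on parabolic classes: `H¹_par` (model) `≃ parabolicHoms ℤ Γ ℤ`.** -/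
noncomputable def bridgeP (hneg : (-1 : SL(2,ℤ)) ∈ Γ) :
    PQ (suData Γ hneg) ≃ₗ[ℤ] parabolicHoms ℤ Γ ℤ :=
  ((bridgeB hneg).submoduleMap (PQ (suData Γ hneg))).trans
    (LinearEquiv.ofEq _ _ (map_bridgeB_PQ hneg))

theorem bridgeP_coe (hneg : (-1 : SL(2,ℤ)) ∈ Γ) (p : PQ (suData Γ hneg)) :
    ((bridgeP hneg p : parabolicHoms ℤ Γ ℤ) : Additive Γ →+ ℤ) = bridgeB hneg (p : BQ _) := rfl

end Fermat.Agent.GM.Bridge
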