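/-
GATE-M (S41) / S41-D-BRIDGE-MANIN, file 3 (helper14).

Compatibility of the bridge `bridgeB` with restriction and corestriction for `Γ' ≤ Γ`:
`π : SL(2,ℤ) ⧸ Γ' → SL(2,ℤ) ⧸ Γ` is a morphism of `(S,U)`-sets (`suHom`), and

* `bridgeB_pullB` : `bridgeB' (pullB π b) γ' = bridgeB b γ'`            (restriction);
* `bridgeB_pushB` : `bridgeB (pushB π b') γ = ∑ i, bridgeB' b' (c γ i)`  (transfer) for ANY family
  `r i ∈ Γ` of representatives of `Γ' \ Γ` (`r i * γ = c γ i * r (σ i)`, `c γ i ∈ Γ'`);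
* `bridgeB_pushB_cosetSys` : the same in helper91's `CosetSys` language.
-/
import Fermat.Agent.GM.Bridge.Parabolic
import Fermat.Agent.GM.B.System

set_option autoImplicit false
set_option linter.unusedSectionVars false

open scoped MatrixGroups
open ModularGroup ModularCurve.Period

namespace Fermat.Agent.GM.Bridge

open Fermat.Agent.GM.PD Fermat.Agent.S16.LB.PingPong Fermat.Agent.S16.LB.PPLift

variable {Γ' Γ : Subgroup SL(2,ℤ)}

/-! ### the projection `π` -/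

/-- the projection `SL(2,ℤ) ⧸ Γ' → SL(2,ℤ) ⧸ Γ` -/
def proj (hle : Γ' ≤ Γ) : SL(2,ℤ) ⧸ Γ' → SL(2,ℤ) ⧸ Γ := Subgroup.quotientMapOfLE hle

theorem proj_mk (hle : Γ' ≤ Γ) (g : SL(2,ℤ)) :
    proj hle (g : SL(2,ℤ) ⧸ Γ') = (g : SL(2,ℤ) ⧸ Γ) := rfl

theorem proj_smul (hle : Γ' ≤ Γ) (g : SL(2,ℤ)) (x' : SL(2,ℤ) ⧸ Γ') :
    proj hle (g • x') = g • proj hle x' := by
  induction x' using QuotientGroup.induction_on with
  | H h => rfl

theorem proj_x0 (hle : Γ' ≤ Γ) : proj hle (x0 Γ') = x0 Γ := rfl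

/-- `π` as a morphism of `(S,U)`-sets -/
def suHom (hle : Γ' ≤ Γ) (hneg' : (-1 : SL(2,ℤ)) ∈ Γ') :
    SUHom (suData Γ' hneg') (suData Γ (hle hneg')) where
  toFun := proj hle
  map_S := fun x' => proj_smul hle S x'
  map_U := fun x' => proj_smul hle (S * T) x'

@[simp] theorem suHom_toFun (hle : Γ' ≤ Γ) (hneg' : (-1 : SL(2,ℤ)) ∈ Γ') :
    (suHom hle hneg').toFun = proj hle := rfl

variable [Fintype (SL(2,ℤ) ⧸ Γ)] [DecidableEq (SL(2,ℤ) ⧸ Γ)]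
  [Fintype (SL(2,ℤ) ⧸ Γ')] [DecidableEq (SL(2,ℤ) ⧸ Γ')]

/-! ### restriction -/

theorem cocOf_pullM (hle : Γ' ≤ Γ) (hneg' : (-1 : SL(2,ℤ)) ∈ Γ') (m : SL(2,ℤ) ⧸ Γ → ℤ) :
    cocOf hneg' (pullM (proj hle) m) = fun g x' => cocOf (hle hneg') m g (proj hle x') := by
  have hc := isCoc_cocOf (hle hneg') m
  apply cocOf_eq hneg'
  · intro g' g x'
    show cocOf (hle hneg') m (g' * g) (proj hle x')
      = cocOf (hle hneg') m g (proj hle x') + cocOf (hle hneg') m g' (proj hle (g • x'))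
    rw [hc, proj_smul]
  · funext x'
    show cocOf (hle hneg') m S (proj hle x') = _
    rw [cocOf_S]
    simp only [aOf, pullM_apply, proj_smul]
  · funext x'
    show cocOf (hle hneg') m (S * T) (proj hle x') = _
    rw [cocOf_U]; rfl

/-- **restriction**: `bridgeB` intertwines `pullB` with restriction of homomorphisms to `Γ'`. -/
theorem bridgeB_pullB (hle : Γ' ≤ Γ) (hneg' : (-1 : SL(2,ℤ)) ∈ Γ')
    (b : BQ (suData Γ (hle hneg'))) (γ' : Γ') :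
    bridgeB hneg' (pullB (suHom hle hneg') b) (Additive.ofMul γ')
      = bridgeB (hle hneg') b (Additive.ofMul (Subgroup.inclusion hle γ')) := by
  induction b using Submodule.Quotient.induction_on with
  | _ m =>
    rw [pullB_mk, bridgeB_mk_apply, bridgeB_mk_apply, suHom_toFun, cocOf_pullM]
    rfl

/-! ### corestriction -/

/-- push-forward of a cocycle: fibre sums -/
def pushCoc (hle : Γ' ≤ Γ) (c' : SL(2,ℤ) → SL(2,ℤ) ⧸ Γ' → ℤ) :
    SL(2,ℤ) → SL(2,ℤ) ⧸ Γ → ℤ := fun g => pushM (proj hle) (c' g)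

theorem pushM_smul (hle : Γ' ≤ Γ) (g : SL(2,ℤ)) (m' : SL(2,ℤ) ⧸ Γ' → ℤ) (x : SL(2,ℤ) ⧸ Γ) :
    pushM (proj hle) (fun x' => m' (g • x')) x = pushM (proj hle) m' (g • x) := by
  have h := pushM_comp_perm (proj hle) (MulAction.toPerm g) (MulAction.toPerm g)
    (fun x' => proj_smul hle g x') m'
  exact congrFun h x

theorem isCoc_pushCoc (hle : Γ' ≤ Γ) {c' : SL(2,ℤ) → SL(2,ℤ) ⧸ Γ' → ℤ} (hc' : IsCoc c') :
    IsCoc (pushCoc hle c') := by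
  intro g' g x
  show pushM (proj hle) (c' (g' * g)) x
    = pushM (proj hle) (c' g) x + pushM (proj hle) (c' g') (g • x)
  rw [← pushM_smul hle g (c' g') x]
  have : c' (g' * g) = c' g + fun x' => c' g' (g • x') := by
    funext x'
    exact hc' g' g x'
  rw [this, map_add]
  rfl

theorem cocOf_pushM (hle : Γ' ≤ Γ) (hneg' : (-1 : SL(2,ℤ)) ∈ Γ') (m' : SL(2,ℤ) ⧸ Γ' → ℤ) :
    cocOf (hle hneg') (pushM (proj hle) m') = pushCoc hle (cocOf hneg' m') := by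
  apply cocOf_eq (hle hneg') _ (isCoc_pushCoc hle (isCoc_cocOf hneg' m'))
  · show pushM (proj hle) (cocOf hneg' m' S) = _
    rw [cocOf_S]
    funext x
    have h1 : aOf m' = (fun x' => m' ((S : SL(2,ℤ)) • x')) - m' := rfl
    rw [h1, map_sub, Pi.sub_apply, pushM_smul]
    rfl
  · show pushM (proj hle) (cocOf hneg' m' (S * T)) = _
    rw [cocOf_U, map_zero]

/-- **corestriction (transfer), raw form.**  `r i` representatives with `r i * γ = cγ i * r (σ i)`,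
`cγ i ∈ Γ'`, such that `i ↦ (r i)⁻¹ Γ'` is a bijection onto the fibre of `π` over the base coset. -/
theorem bridgeFun_pushM_apply (hle : Γ' ≤ Γ) (hneg' : (-1 : SL(2,ℤ)) ∈ Γ')
    {ι : Type*} [Fintype ι] (r : ι → SL(2,ℤ))
    (hinj : Function.Injective fun i => (r i)⁻¹ • x0 Γ')
    (hfib : ∀ x' : SL(2,ℤ) ⧸ Γ', proj hle x' = x0 Γ ↔ ∃ i, (r i)⁻¹ • x0 Γ' = x')
    (γ : Γ) (σ : Equiv.Perm ι) (cγ : ι → Γ')
    (hrel : ∀ i, r i * (γ : SL(2,ℤ)) = (cγ i : SL(2,ℤ)) * r (σ i))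
    (m' : SL(2,ℤ) ⧸ Γ' → ℤ) :
    bridgeFun (hle hneg') (pushM (proj hle) m') (Additive.ofMul γ)
      = ∑ i, bridgeFun hneg' m' (Additive.ofMul (cγ i)) := by
  classical
  set c' := cocOf hneg' m' with hc'def
  have hc' : IsCoc c' := isCoc_cocOf hneg' m'
  rw [bridgeFun_apply, cocOf_pushM]
  show pushM (proj hle) (c' γ) (x0 Γ) = ∑ i, c' ((cγ i : Γ') : SL(2,ℤ)) (x0 Γ')
  -- the fibre sum
  have hfibre : pushM (proj hle) (c' γ) (x0 Γ) = ∑ i, c' γ ((r i)⁻¹ • x0 Γ') := by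
    rw [pushM_apply, ← Finset.sum_filter]
    symm
    refine Finset.sum_bij (fun i _ => (r i)⁻¹ • x0 Γ') ?_ ?_ ?_ ?_
    · intro i _
      rw [Finset.mem_filter]
      exact ⟨Finset.mem_univ _, (hfib _).2 ⟨i, rfl⟩⟩
    · intro i _ j _ h
      exact hinj h
    · intro x' hx'
      rw [Finset.mem_filter] at hx'
      obtain ⟨i, hi⟩ := (hfib x').1 hx'.2
      exact ⟨i, Finset.mem_univ _, hi⟩
    · intro i _
      rfl
  rw [hfibre]
  -- the cocycle computation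
  set u : ι → ℤ := fun i => c' (r i)⁻¹ (x0 Γ') with hu
  have hterm : ∀ i, c' ((cγ i : Γ') : SL(2,ℤ)) (x0 Γ')
      = u (σ i) + c' γ ((r (σ i))⁻¹ • x0 Γ') - u i := by
    intro i
    have e1 : ((cγ i : Γ') : SL(2,ℤ)) = r i * ((γ : SL(2,ℤ)) * (r (σ i))⁻¹) := by
      rw [← mul_assoc, hrel i, mul_assoc, mul_inv_cancel, mul_one]
    have e2 : ((γ : SL(2,ℤ)) * (r (σ i))⁻¹) • x0 Γ' = (r i)⁻¹ • x0 Γ' := by
      have : (γ : SL(2,ℤ)) * (r (σ i))⁻¹ = (r i)⁻¹ * ((cγ i : Γ') : SL(2,ℤ)) := by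
        rw [e1, inv_mul_cancel_left]
      rw [this, mul_smul, smul_x0_of_mem (cγ i).2]
    have e3 : c' (r i) ((r i)⁻¹ • x0 Γ') = - u i := by
      show c' (r i) ((r i)⁻¹ • x0 Γ') = - c' (r i)⁻¹ (x0 Γ')
      rw [hc'.inv (r i) (x0 Γ'), neg_neg]
    rw [e1, hc' (r i) _ (x0 Γ'), hc' γ _ (x0 Γ'), e2, e3]
    ring
  rw [Finset.sum_congr rfl (fun i _ => hterm i), Finset.sum_sub_distrib, Finset.sum_add_distrib,
    Equiv.sum_comp σ u, Equiv.sum_comp σ (fun j => c' γ ((r j)⁻¹ • x0 Γ'))]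
  ring

/-- the same for classes in `BQ` -/
theorem bridgeB_pushB (hle : Γ' ≤ Γ) (hneg' : (-1 : SL(2,ℤ)) ∈ Γ')
    {ι : Type*} [Fintype ι] (r : ι → SL(2,ℤ))
    (hinj : Function.Injective fun i => (r i)⁻¹ • x0 Γ')
    (hfib : ∀ x' : SL(2,ℤ) ⧸ Γ', proj hle x' = x0 Γ ↔ ∃ i, (r i)⁻¹ • x0 Γ' = x')
    (γ : Γ) (σ : Equiv.Perm ι) (cγ : ι → Γ')
    (hrel : ∀ i, r i * (γ : SL(2,ℤ)) = (cγ i : SL(2,ℤ)) * r (σ i))
    (b' : BQ (suData Γ' hneg')) :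
    bridgeB (hle hneg') (pushB (suHom hle hneg') b') (Additive.ofMul γ)
      = ∑ i, bridgeB hneg' b' (Additive.ofMul (cγ i)) := by
  induction b' using Submodule.Quotient.induction_on with
  | _ m' =>
    rw [pushB_mk, bridgeB_mk, suHom_toFun]
    exact bridgeFun_pushM_apply hle hneg' r hinj hfib γ σ cγ hrel m'

/-! ### transversal hypotheses from group-theoretic ones -/

theorem inv_smul_x0_eq_iff (g h : SL(2,ℤ)) :
    g⁻¹ • x0 Γ' = h⁻¹ • x0 Γ' ↔ g * h⁻¹ ∈ Γ' := by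
  rw [x0, smul_mk, smul_mk, mul_one, mul_one, mk_eq_mk_iff, inv_inv]

theorem hinj_of_reps {ι : Type*} (r : ι → SL(2,ℤ))
    (h : ∀ i j, r i * (r j)⁻¹ ∈ Γ' → i = j) :
    Function.Injective fun i => (r i)⁻¹ • x0 Γ' := by
  intro i j hij
  exact h i j ((inv_smul_x0_eq_iff _ _).1 hij)

theorem hfib_of_reps (hle : Γ' ≤ Γ) {ι : Type*} (r : ι → SL(2,ℤ)) (hr : ∀ i, r i ∈ Γ)
    (hsurj : ∀ s : SL(2,ℤ), s ∈ Γ → ∃ i, r i * s ∈ Γ')
    (x' : SL(2,ℤ) ⧸ Γ') : proj hle x' = x0 Γ ↔ ∃ i, (r i)⁻¹ • x0 Γ' = x' := by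
  constructor
  · intro hx'
    induction x' using QuotientGroup.induction_on with
    | H s =>
      rw [proj_mk, mk_eq_x0_iff] at hx'
      obtain ⟨i, hi⟩ := hsurj s hx'
      refine ⟨i, ?_⟩
      rw [x0, smul_mk, mul_one, mk_eq_mk_iff, inv_inv]
      exact hi
  · rintro ⟨i, rfl⟩
    rw [proj_smul, proj_x0]
    exact smul_x0_of_mem (Γ.inv_mem (hr i))

/-! ### helper91's coset systems -/

open Fermat.Agent.GM.B in
/-- **corestriction in `CosetSys` form**: for a coset system `Sy` from `Γ'` to `Γ` whose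
representatives are `emb (r i)` with `r i ∈ Γ` pairwise inequivalent mod `Γ'`, the operator
`Sy.op` corresponds to `pushB` under the bridge. -/
theorem bridgeB_pushB_cosetSys (hle : Γ' ≤ Γ) (hneg' : (-1 : SL(2,ℤ)) ∈ Γ')
    {G : Type*} [Group G] {emb : SL(2,ℤ) →* G} (hemb : Function.Injective emb)
    (Sy : CosetSys emb Γ' Γ) [Nonempty Sy.ι] (r : Sy.ι → SL(2,ℤ))
    (hra : ∀ i, Sy.a i = emb (r i)) (hr : ∀ i, r i ∈ Γ)
    (hdist : ∀ i j, r i * (r j)⁻¹ ∈ Γ' → i = j)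
    (b' : BQ (suData Γ' hneg')) :
    bridgeB (hle hneg') (pushB (suHom hle hneg') b') = Sy.op ℤ (bridgeB hneg' b') := by
  have hrel : ∀ (γ : Γ) (i : Sy.ι),
      r i * (γ : SL(2,ℤ)) = ((Sy.c γ i : Γ') : SL(2,ℤ)) * r (Sy.σ γ i) := by
    intro γ i
    apply hemb
    have := Sy.rel γ i
    rw [hra, hra] at this
    rw [map_mul, map_mul]
    exact this
  have hsurj : ∀ s : SL(2,ℤ), s ∈ Γ → ∃ i, r i * s ∈ Γ' := by
    intro s hs
    obtain ⟨i₀⟩ := (inferInstance : Nonempty Sy.ι)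
    set γ : Γ := ⟨(r i₀)⁻¹ * s⁻¹, Γ.mul_mem (Γ.inv_mem (hr i₀)) (Γ.inv_mem hs)⟩ with hγ
    refine ⟨Sy.σ γ i₀, ?_⟩
    have h1 := hrel γ i₀
    have h2 : r (Sy.σ γ i₀) * s = (((Sy.c γ i₀ : Γ') : SL(2,ℤ)))⁻¹ := by
      have h3 : ((γ : Γ) : SL(2,ℤ)) = (r i₀)⁻¹ * s⁻¹ := rfl
      rw [h3, mul_inv_cancel_left] at h1
      have hs' : s = (((Sy.c γ i₀ : Γ') : SL(2,ℤ)) * r (Sy.σ γ i₀))⁻¹ := by
        rw [← h1, inv_inv]
      rw [hs', mul_inv_rev, mul_inv_cancel_left]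
    rw [h2]
    exact Γ'.inv_mem (Sy.c γ i₀).2
  refine DFunLike.ext _ _ fun γ => ?_
  obtain ⟨γ, rfl⟩ : ∃ γ₀ : Γ, Additive.ofMul γ₀ = γ := ⟨Additive.toMul γ, rfl⟩
  rw [CosetSys.op_apply]
  exact bridgeB_pushB hle hneg' r (hinj_of_reps r hdist) (hfib_of_reps hle r hr hsurj) γ
    (Sy.σ γ) (Sy.c γ) (hrel γ) b'

end Fermat.Agent.GM.Bridge
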