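/-
GATE-M (S41) / S41-D-BRIDGE-MANIN, file 4 (helper14).

The unimodular cup form on `parabolicHoms ℤ Γ ℤ`: transport of helper23's `cupForm` along the bridge
`bridgeP`.

* `lamForm hneg : Λ_Γ →ₗ[ℤ] Λ_Γ →ₗ[ℤ] ℤ`, `lamForm_bijective` (UNIMODULAR), `lamForm_skew`;
* `lamForm_left_nondeg_mod` : non-degeneracy mod every `n` (the `hB` binder of `DualIhara`);
* `lamForm_res_cores` : `⟨res x, z⟩_{Γ'} = ⟨x, cores z⟩_Γ` for `Γ' ≤ Γ`, `cores` given by any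
  coset system of honest representatives (helper91's `CosetSys`).
-/
import Fermat.Agent.GM.Bridge.ResCores
import Fermat.Agent.GM.PD.ModP

set_option autoImplicit false
set_option linter.unusedSectionVars false

open scoped MatrixGroups
open ModularGroup ModularCurve.Period

namespace Fermat.Agent.GM.Bridge

open Fermat.Agent.GM.PD Fermat.Agent.S16.LB.PingPong Fermat.Agent.S16.LB.PPLift

section One

variable {Γ : Subgroup SL(2,ℤ)} [Fintype (SL(2,ℤ) ⧸ Γ)] [DecidableEq (SL(2,ℤ) ⧸ Γ)]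

/-- **the cup form on `parabolicHoms ℤ Γ ℤ`** -/
noncomputable def lamForm (hneg : (-1 : SL(2,ℤ)) ∈ Γ) :
    parabolicHoms ℤ Γ ℤ →ₗ[ℤ] parabolicHoms ℤ Γ ℤ →ₗ[ℤ] ℤ :=
  (cupForm (suData Γ hneg)).compl₁₂ ((bridgeP hneg).symm : parabolicHoms ℤ Γ ℤ →ₗ[ℤ] _)
    ((bridgeP hneg).symm : parabolicHoms ℤ Γ ℤ →ₗ[ℤ] _)

theorem lamForm_apply (hneg : (-1 : SL(2,ℤ)) ∈ Γ) (x y : parabolicHoms ℤ Γ ℤ) :
    lamForm hneg x y = cupForm (suData Γ hneg) ((bridgeP hneg).symm x) ((bridgeP hneg).symm y) :=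
  rfl

theorem lamForm_bridgeP (hneg : (-1 : SL(2,ℤ)) ∈ Γ) (p p' : PQ (suData Γ hneg)) :
    lamForm hneg (bridgeP hneg p) (bridgeP hneg p') = cupForm (suData Γ hneg) p p' := by
  rw [lamForm_apply, LinearEquiv.symm_apply_apply, LinearEquiv.symm_apply_apply]

theorem lamForm_skew (hneg : (-1 : SL(2,ℤ)) ∈ Γ) (x y : parabolicHoms ℤ Γ ℤ) :
    lamForm hneg x y = - lamForm hneg y x := by
  rw [lamForm_apply, lamForm_apply, cupForm_skew]

/-- **unimodularity** -/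
theorem lamForm_bijective (hneg : (-1 : SL(2,ℤ)) ∈ Γ) : Function.Bijective (lamForm (Γ := Γ) hneg) := by
  have hb := cupForm_bijective (suData Γ hneg)
  constructor
  · intro x x' h
    have h1 : cupForm (suData Γ hneg) ((bridgeP hneg).symm x)
        = cupForm (suData Γ hneg) ((bridgeP hneg).symm x') := by
      apply LinearMap.ext
      intro p'
      have := LinearMap.congr_fun h (bridgeP hneg p')
      rw [lamForm_apply, lamForm_apply, LinearEquiv.symm_apply_apply] at this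
      exact this
    exact (bridgeP hneg).symm.injective (hb.1 h1)
  · intro φ
    obtain ⟨p, hp⟩ := hb.2 (φ.comp ((bridgeP hneg) : PQ (suData Γ hneg) →ₗ[ℤ] _))
    refine ⟨bridgeP hneg p, ?_⟩
    apply LinearMap.ext
    intro y
    rw [lamForm_apply, LinearEquiv.symm_apply_apply, hp]
    show φ (bridgeP hneg ((bridgeP hneg).symm y)) = φ y
    rw [LinearEquiv.apply_symm_apply]

/-- non-degeneracy mod `n` (every `n`, in particular `n = 3`) -/
theorem lamForm_left_nondeg_mod (hneg : (-1 : SL(2,ℤ)) ∈ Γ) (n : ℕ) (x : parabolicHoms ℤ Γ ℤ)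
    (hx : ∀ y, ((lamForm hneg x y : ℤ) : ZMod n) = 0) : ∃ z, x = (n : ℤ) • z := by
  have h := redForm_left_nondeg n (lamForm hneg) (lamForm_bijective hneg).2
    (lamForm_bijective hneg).1 x (fun y => by rw [redForm_apply]; exact hx y)
  exact h

end One

section Two

variable {Γ' Γ : Subgroup SL(2,ℤ)}
  [Fintype (SL(2,ℤ) ⧸ Γ)] [DecidableEq (SL(2,ℤ) ⧸ Γ)]
  [Fintype (SL(2,ℤ) ⧸ Γ')] [DecidableEq (SL(2,ℤ) ⧸ Γ')]

/-- `bridgeP` and restriction -/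
theorem bridgeP_symm_res (hle : Γ' ≤ Γ) (hneg' : (-1 : SL(2,ℤ)) ∈ Γ')
    (x : parabolicHoms ℤ Γ ℤ) (x' : parabolicHoms ℤ Γ' ℤ)
    (hx' : ∀ γ' : Γ', (x' : Additive Γ' →+ ℤ) (Additive.ofMul γ')
      = (x : Additive Γ →+ ℤ) (Additive.ofMul (Subgroup.inclusion hle γ'))) :
    (bridgeP hneg').symm x' = pullP (suHom hle hneg') ((bridgeP (hle hneg')).symm x) := by
  rw [LinearEquiv.symm_apply_eq]
  apply Subtype.ext
  refine DFunLike.ext _ _ fun γ' => ?_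
  obtain ⟨γ', rfl⟩ : ∃ γ₀ : Γ', Additive.ofMul γ₀ = γ' := ⟨Additive.toMul γ', rfl⟩
  rw [bridgeP_coe, pullP_coe, bridgeB_pullB, ← bridgeP_coe, LinearEquiv.apply_symm_apply, hx']

open Fermat.Agent.GM.B in
/-- `bridgeP` and corestriction -/
theorem bridgeP_symm_cores (hle : Γ' ≤ Γ) (hneg' : (-1 : SL(2,ℤ)) ∈ Γ')
    {G : Type*} [Group G] {emb : SL(2,ℤ) →* G} (hemb : Function.Injective emb)
    (Sy : CosetSys emb Γ' Γ) [Nonempty Sy.ι] (r : Sy.ι → SL(2,ℤ))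
    (hra : ∀ i, Sy.a i = emb (r i)) (hr : ∀ i, r i ∈ Γ)
    (hdist : ∀ i j, r i * (r j)⁻¹ ∈ Γ' → i = j)
    (z : parabolicHoms ℤ Γ' ℤ) (w : parabolicHoms ℤ Γ ℤ)
    (hw : (w : Additive Γ →+ ℤ) = Sy.op ℤ (z : Additive Γ' →+ ℤ)) :
    (bridgeP (hle hneg')).symm w = pushP (suHom hle hneg') ((bridgeP hneg').symm z) := by
  rw [LinearEquiv.symm_apply_eq]
  apply Subtype.ext
  rw [bridgeP_coe, pushP_coe, bridgeB_pushB_cosetSys hle hneg' hemb Sy r hra hr hdist,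
    ← bridgeP_coe, LinearEquiv.apply_symm_apply, hw]

open Fermat.Agent.GM.B in
/-- **(D2) `⟨res x, z⟩_{Γ'} = ⟨x, cores z⟩_Γ`** for the unimodular forms. -/
theorem lamForm_res_cores (hle : Γ' ≤ Γ) (hneg' : (-1 : SL(2,ℤ)) ∈ Γ')
    {G : Type*} [Group G] {emb : SL(2,ℤ) →* G} (hemb : Function.Injective emb)
    (Sy : CosetSys emb Γ' Γ) [Nonempty Sy.ι] (r : Sy.ι → SL(2,ℤ))
    (hra : ∀ i, Sy.a i = emb (r i)) (hr : ∀ i, r i ∈ Γ)
    (hdist : ∀ i j, r i * (r j)⁻¹ ∈ Γ' → i = j)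
    (x : parabolicHoms ℤ Γ ℤ) (x' : parabolicHoms ℤ Γ' ℤ)
    (hx' : ∀ γ' : Γ', (x' : Additive Γ' →+ ℤ) (Additive.ofMul γ')
      = (x : Additive Γ →+ ℤ) (Additive.ofMul (Subgroup.inclusion hle γ')))
    (z : parabolicHoms ℤ Γ' ℤ) (w : parabolicHoms ℤ Γ ℤ)
    (hw : (w : Additive Γ →+ ℤ) = Sy.op ℤ (z : Additive Γ' →+ ℤ)) :
    lamForm hneg' x' z = lamForm (hle hneg') x w := by
  rw [lamForm_apply, lamForm_apply, bridgeP_symm_res hle hneg' x x' hx',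
    bridgeP_symm_cores hle hneg' hemb Sy r hra hr hdist z w hw, cupForm_pullP]

end Two

end Fermat.Agent.GM.Bridge
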