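/-
GATE-M (S41) / S41-THETA-K (helper14, asked by helper37 in board 3698).

The KEY IDENTITY (K) linking helper37's intrinsic crossing homomorphisms `Θ_Γ(a,b)`
(`GM/Theta`) with the Manin-model lattice of helper23 (`GM/PD`) through the bridge `bridgeB`
(`GM/Bridge/Model`):  for `-1 ∈ Γ ≤ SL(2,ℤ)`, `a ∈ aSub (suData Γ)`, `g, k ∈ SL(2,ℤ)`

  `⟨a, Θ_Γ(k⁻¹∞, k⁻¹g⁻¹∞)⟩ = -2 · c_a g (kΓ)`,

where `⟨a, ψ⟩ = pairAB a (bridgeB.symm ψ)` and `c_a` is THE cocycle with `c_a S = -a`,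
`c_a (S*T) = a ∘ (S*T)` (so `c_a T = 0`), whose restriction to `Γ` is `bridgeB (jMap a)`.
In particular (`k = 1`, `g = γ ∈ Γ`)

  `⟨a, Θ_Γ(∞, γ⁻¹∞)⟩ = -2 · (bridgeB (jMap a)) γ`.                                   (K)

Consequence used in the outer adjointness (O1): a linear functional on `Hom(Γ,ℤ)` vanishing on
all `Θ_Γ(∞, γ⁻¹∞)` vanishes on the parabolic classes.
-/
import Fermat.Agent.GM.Bridge.Parabolic
import Fermat.Agent.GM.Theta.Main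
import Fermat.Agent.GM.Theta.TriFin

set_option autoImplicit false
set_option linter.unusedSectionVars false

open scoped MatrixGroups
open ModularGroup

namespace Fermat.Agent.GM.Bridge.KeyK

open Fermat.Agent.GM.PD Fermat.Agent.S16.LB.PingPong Fermat.Agent.S16.LB.PPLift
open Fermat.Agent.GM.Theta Fermat.Agent.GM.Theta.Calc Fermat.Agent.GM.Bridge

variable (Γ : Subgroup SL(2,ℤ))

/-- `Θ_Γ(a,b)` at the base point `PU`. -/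
noncomputable abbrev Th (a b : Cu) : Additive Γ →+ ℤ :=
  theta side isInv_side_SL Γ (finCross_side_SL Γ) PU a b

/-! ### generalities on `Θ_Γ` for `Γ ≤ SL(2,ℤ)` -/

/-- `Θ_Γ(a,b)` only depends on the side functions of the translates of `(a,b)`. -/
theorem Th_congr {a b a' b' : Cu}
    (h : ∀ (P : Theta.Frm) (g : SL(2,ℤ)), side P (g • a) (g • b) = side P (g • a') (g • b')) :
    Th Γ a b = Th Γ a' b' := by
  refine AddMonoidHom.ext fun γ' => ?_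
  obtain ⟨γ, rfl⟩ : ∃ γ : Γ, Additive.ofMul γ = γ' := ⟨Additive.toMul γ', rfl⟩
  rw [theta_apply, theta_apply]
  unfold cross
  refine finsum_congr fun g => ?_
  unfold term
  rw [h, h]

theorem Th_scale_right (a b : Cu) {t : ℚ} (ht : t ≠ 0) :
    Th Γ a (Cu.scale t b) = Th Γ a b := by
  apply Th_congr
  intro P g
  rw [sl_smul_cu g (Cu.scale t b), emb_smul_scale, side_scale_right P ht]
  rfl

/-- (T) for a subgroup of `SL(2,ℤ)` and three genuine cusps. -/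
theorem hT_of_ne_zero (P : Theta.Frm) (a b c : Cu) (ha : a.x ≠ 0 ∨ a.y ≠ 0)
    (hb : b.x ≠ 0 ∨ b.y ≠ 0) (hc : c.x ≠ 0 ∨ c.y ≠ 0) :
    ∃ k : ℤ, {g : Γ | tri side P a b c (g : SL(2,ℤ)) ≠ k}.Finite := by
  obtain ⟨k, hk⟩ := TriFin.exists_finite_tri_ne_of_ne_zero P a b c ha hb hc
  refine ⟨k, Set.Finite.of_injOn (f := fun g : Γ => (g : SL(2,ℤ))) ?_ ?_ hk⟩
  · intro g hg
    exact hg
  · intro g _ g' _ h
    exact Subtype.ext h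

theorem Th_add (a b c : Cu) (ha : a.x ≠ 0 ∨ a.y ≠ 0)
    (hb : b.x ≠ 0 ∨ b.y ≠ 0) (hc : c.x ≠ 0 ∨ c.y ≠ 0) :
    Th Γ a b + Th Γ b c = Th Γ a c :=
  theta_add side isInv_side_SL Γ (finCross_side_SL Γ) PU a b c (hT_of_ne_zero Γ PU a b c ha hb hc)

theorem Th_self (a : Cu) : Th Γ a a = 0 :=
  theta_self side isInv_side_SL Γ (finCross_side_SL Γ) PU a (fun P Q c => by
    rw [TriFin.side_eq_zero_of_dt_eq_zero P (TriFin.dt_self c),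
      TriFin.side_eq_zero_of_dt_eq_zero Q (TriFin.dt_self c)])

theorem Th_swap (a b : Cu) (ha : a.x ≠ 0 ∨ a.y ≠ 0) (hb : b.x ≠ 0 ∨ b.y ≠ 0) :
    Th Γ b a = - Th Γ a b :=
  theta_swap side isInv_side_SL Γ (finCross_side_SL Γ) PU a b
    (hT_of_ne_zero Γ PU a b a ha hb ha) (Th_self Γ a)

theorem Th_smul_mem (a b : Cu) (γ : Γ) :
    Th Γ ((γ : SL(2,ℤ)) • a) ((γ : SL(2,ℤ)) • b) = Th Γ a b :=
  theta_smul_cusps side isInv_side_SL Γ (finCross_side_SL Γ) PU a b γ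

theorem eInf_ne_zero : eInf.x ≠ 0 ∨ eInf.y ≠ 0 := Or.inl (by simp [eInf])

theorem e0_ne_zero : e0.x ≠ 0 ∨ e0.y ≠ 0 := Or.inr (by simp [e0])

theorem sl_smul_ne_zero (g : SL(2,ℤ)) {a : Cu} (h : a.x ≠ 0 ∨ a.y ≠ 0) :
    (g • a).x ≠ 0 ∨ (g • a).y ≠ 0 := smul_ne_zero_of_ne_zero g h

theorem T_inv_smul_eInf : (T⁻¹ : SL(2,ℤ)) • eInf = eInf := by
  rw [sl_smul_cu, emb_smul_eInf]
  have h1 : (T⁻¹ : SL(2,ℤ)) 0 0 = 1 := by decide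
  have h2 : (T⁻¹ : SL(2,ℤ)) 1 0 = 0 := by decide
  rw [h1, h2]
  simp [eInf]

theorem S_inv_smul_eInf : (S⁻¹ : SL(2,ℤ)) • eInf = Cu.scale (-1) e0 := by
  rw [sl_smul_cu, emb_smul_eInf]
  have h1 : (S⁻¹ : SL(2,ℤ)) 0 0 = 0 := by decide
  have h2 : (S⁻¹ : SL(2,ℤ)) 1 0 = -1 := by decide
  rw [h1, h2]
  simp [e0, Cu.scale]


/-! ### the pairing `⟨a, ψ⟩ = pairAB a (bridgeB⁻¹ ψ)` -/

section Pair

variable {Γ}
variable [Fintype (SL(2,ℤ) ⧸ Γ)] [DecidableEq (SL(2,ℤ) ⧸ Γ)]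

/-- `ψ ↦ ⟨a, ψ⟩ = pairAB a (bridgeB⁻¹ ψ)`, a linear functional on `Hom(Γ,ℤ)`. -/
noncomputable def pairT (hneg : (-1 : SL(2,ℤ)) ∈ Γ) (a : aSub (suData Γ hneg)) :
    (Additive Γ →+ ℤ) →ₗ[ℤ] ℤ :=
  (pairAB (suData Γ hneg) a).comp (bridgeB hneg).symm.toLinearMap

theorem pairT_apply (hneg : (-1 : SL(2,ℤ)) ∈ Γ) (a : aSub (suData Γ hneg))
    (ψ : Additive Γ →+ ℤ) :
    pairT hneg a ψ = pairAB (suData Γ hneg) a ((bridgeB hneg).symm ψ) := rfl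

theorem pairT_bridgeB (hneg : (-1 : SL(2,ℤ)) ∈ Γ) (a : aSub (suData Γ hneg))
    (b : BQ (suData Γ hneg)) : pairT hneg a (bridgeB hneg b) = pairAB (suData Γ hneg) a b := by
  rw [pairT_apply, LinearEquiv.symm_apply_apply]

theorem pairT_bridgeFun (hneg : (-1 : SL(2,ℤ)) ∈ Γ) (a : aSub (suData Γ hneg))
    (m : SL(2,ℤ) ⧸ Γ → ℤ) :
    pairT hneg a (bridgeFun hneg m) = stdForm (a : SL(2,ℤ) ⧸ Γ → ℤ) m := by
  rw [← bridgeB_mk, pairT_bridgeB, pairAB_mk]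

theorem stdForm_indic (a : SL(2,ℤ) ⧸ Γ → ℤ) (y : SL(2,ℤ) ⧸ Γ) :
    stdForm a (indic Γ y) = a y := by
  rw [stdForm_apply, Finset.sum_eq_single y]
  · rw [indic_apply, if_pos rfl, mul_one]
  · intro x _ hx
    rw [indic_apply, if_neg hx, mul_zero]
  · intro h
    exact absurd (Finset.mem_univ y) h

/-- `Θ_Γ(h·0, h·∞) = -2 · bridgeFun (indicator of h⁻¹Γ)` (helper37's `theta_eq_cocycle`). -/
theorem Th_edge (hneg : (-1 : SL(2,ℤ)) ∈ Γ) (h : SL(2,ℤ)) :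
    Th Γ (h • e0) (h • eInf)
      = (-2 : ℤ) • bridgeFun hneg (indic Γ ((h⁻¹ : SL(2,ℤ)) : SL(2,ℤ) ⧸ Γ)) := by
  refine AddMonoidHom.ext fun γ' => ?_
  obtain ⟨γ, rfl⟩ : ∃ γ : Γ, Additive.ofMul γ = γ' := ⟨Additive.toMul γ', rfl⟩
  rw [theta_eq_cocycle Γ hneg h (cocOf hneg (indic Γ ((h⁻¹ : SL(2,ℤ)) : SL(2,ℤ) ⧸ Γ)))
    (isCoc_cocOf hneg _) (fun x => by rw [cocOf_S]; rfl) (cocOf_U hneg _) γ]
  rfl

/-! ### the cocycle `E` -/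

/-- `E` on representatives: `E(g)(k) = ⟨a, Θ_Γ(k⁻¹∞, k⁻¹g⁻¹∞)⟩`. -/
noncomputable def Epre (hneg : (-1 : SL(2,ℤ)) ∈ Γ) (a : aSub (suData Γ hneg))
    (g k : SL(2,ℤ)) : ℤ :=
  pairT hneg a (Th Γ (k⁻¹ • eInf) ((k⁻¹ * g⁻¹) • eInf))

theorem Epre_mul_right (hneg : (-1 : SL(2,ℤ)) ∈ Γ) (a : aSub (suData Γ hneg))
    (g k : SL(2,ℤ)) (γ : Γ) : Epre hneg a g (k * γ) = Epre hneg a g k := by
  unfold Epre
  have h1 : ((k * (γ : SL(2,ℤ)))⁻¹ : SL(2,ℤ)) • eInf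
      = ((γ⁻¹ : Γ) : SL(2,ℤ)) • (k⁻¹ • eInf) := by
    rw [mul_inv_rev, mul_smul]; rfl
  have h2 : ((k * (γ : SL(2,ℤ)))⁻¹ * g⁻¹ : SL(2,ℤ)) • eInf
      = ((γ⁻¹ : Γ) : SL(2,ℤ)) • ((k⁻¹ * g⁻¹) • eInf) := by
    rw [mul_inv_rev, mul_assoc, mul_smul]; rfl
  rw [h1, h2, Th_smul_mem]

/-- the cocycle `E(g)(kΓ) = ⟨a, Θ_Γ(k⁻¹∞, k⁻¹g⁻¹∞)⟩` -/
noncomputable def Ecoc (hneg : (-1 : SL(2,ℤ)) ∈ Γ) (a : aSub (suData Γ hneg))
    (g : SL(2,ℤ)) (x : SL(2,ℤ) ⧸ Γ) : ℤ :=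
  Quotient.liftOn' x (Epre hneg a g) (by
    intro k k' h
    rw [QuotientGroup.leftRel_apply] at h
    have : k' = k * ((⟨k⁻¹ * k', h⟩ : Γ) : SL(2,ℤ)) := by simp
    rw [this, Epre_mul_right])

theorem Ecoc_mk (hneg : (-1 : SL(2,ℤ)) ∈ Γ) (a : aSub (suData Γ hneg)) (g k : SL(2,ℤ)) :
    Ecoc hneg a g (k : SL(2,ℤ) ⧸ Γ) = Epre hneg a g k := rfl

theorem isCoc_Ecoc (hneg : (-1 : SL(2,ℤ)) ∈ Γ) (a : aSub (suData Γ hneg)) :
    IsCoc (Ecoc hneg a) := by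
  intro g' g x
  induction x using QuotientGroup.induction_on with
  | H k =>
    rw [smul_mk, Ecoc_mk, Ecoc_mk, Ecoc_mk]
    unfold Epre
    have e1 : (k⁻¹ * (g' * g)⁻¹ : SL(2,ℤ)) = k⁻¹ * g⁻¹ * g'⁻¹ := by
      rw [mul_inv_rev, mul_assoc]
    have e2 : ((g * k)⁻¹ : SL(2,ℤ)) = k⁻¹ * g⁻¹ := mul_inv_rev _ _
    rw [e1, e2, ← map_add]
    congr 1
    exact (Th_add Γ _ _ _ (sl_smul_ne_zero _ eInf_ne_zero) (sl_smul_ne_zero _ eInf_ne_zero)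
      (sl_smul_ne_zero _ eInf_ne_zero)).symm

theorem Ecoc_T (hneg : (-1 : SL(2,ℤ)) ∈ Γ) (a : aSub (suData Γ hneg)) :
    Ecoc hneg a T = 0 := by
  funext x
  induction x using QuotientGroup.induction_on with
  | H k =>
    rw [Ecoc_mk]
    unfold Epre
    rw [mul_smul, T_inv_smul_eInf, Th_self, map_zero]
    rfl

theorem Ecoc_S (hneg : (-1 : SL(2,ℤ)) ∈ Γ) (a : aSub (suData Γ hneg)) (x : SL(2,ℤ) ⧸ Γ) :
    Ecoc hneg a S x = 2 * (a : SL(2,ℤ) ⧸ Γ → ℤ) x := by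
  induction x using QuotientGroup.induction_on with
  | H k =>
    rw [Ecoc_mk]
    unfold Epre
    have h1 : (k⁻¹ * S⁻¹ : SL(2,ℤ)) • eInf = Cu.scale (-1) ((k⁻¹ : SL(2,ℤ)) • e0) := by
      rw [mul_smul, S_inv_smul_eInf, sl_smul_cu, emb_smul_scale]
      rfl
    rw [h1, Th_scale_right Γ _ _ (by norm_num : (-1 : ℚ) ≠ 0),
      Th_swap Γ _ _ (sl_smul_ne_zero _ e0_ne_zero) (sl_smul_ne_zero _ eInf_ne_zero),
      Th_edge hneg k⁻¹, inv_inv, map_neg, map_smul, pairT_bridgeFun, stdForm_indic]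
    simp only [smul_eq_mul]
    ring

/-! ### the symbol-side cocycle `c_a` -/

theorem exists_symCoc (hneg : (-1 : SL(2,ℤ)) ∈ Γ) (a : aSub (suData Γ hneg)) :
    ∃ c : SL(2,ℤ) → SL(2,ℤ) ⧸ Γ → ℤ, IsCoc c ∧
      c S = (fun x => - (a : SL(2,ℤ) ⧸ Γ → ℤ) x) ∧
      c (S * T) = fun x => (a : SL(2,ℤ) ⧸ Γ → ℤ) ((S * T : SL(2,ℤ)) • x) := by
  refine exists_cocycle hneg _ _ ?_ ?_
  · intro x
    have := a.2.1 x
    rw [suData_S_apply] at this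
    omega
  · intro x
    have := a.2.2 ((S * T : SL(2,ℤ)) • x)
    simp only [suData_U_apply] at this
    exact this

/-- THE cocycle with `c_a S = -a`, `c_a (S*T) = a ∘ (S*T)`. -/
noncomputable def symCoc (hneg : (-1 : SL(2,ℤ)) ∈ Γ) (a : aSub (suData Γ hneg)) :
    SL(2,ℤ) → SL(2,ℤ) ⧸ Γ → ℤ := Classical.choose (exists_symCoc hneg a)

theorem isCoc_symCoc (hneg : (-1 : SL(2,ℤ)) ∈ Γ) (a : aSub (suData Γ hneg)) :
    IsCoc (symCoc hneg a) := (Classical.choose_spec (exists_symCoc hneg a)).1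

theorem symCoc_S (hneg : (-1 : SL(2,ℤ)) ∈ Γ) (a : aSub (suData Γ hneg)) (x : SL(2,ℤ) ⧸ Γ) :
    symCoc hneg a S x = - (a : SL(2,ℤ) ⧸ Γ → ℤ) x :=
  congrFun (Classical.choose_spec (exists_symCoc hneg a)).2.1 x

theorem symCoc_U (hneg : (-1 : SL(2,ℤ)) ∈ Γ) (a : aSub (suData Γ hneg)) (x : SL(2,ℤ) ⧸ Γ) :
    symCoc hneg a (S * T) x = (a : SL(2,ℤ) ⧸ Γ → ℤ) ((S * T : SL(2,ℤ)) • x) :=
  congrFun (Classical.choose_spec (exists_symCoc hneg a)).2.2 x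

/-- `c_a T = 0`: the symbol-side cocycle is `T`-normalised. -/
theorem symCoc_T (hneg : (-1 : SL(2,ℤ)) ∈ Γ) (a : aSub (suData Γ hneg)) (x : SL(2,ℤ) ⧸ Γ) :
    symCoc hneg a T x = 0 := by
  rw [c_T (symCoc hneg a) (isCoc_symCoc hneg a) x, symCoc_U, symCoc_S]
  have h1 := a.2.1 ((S * T : SL(2,ℤ)) • x)
  rw [← suData_U_apply hneg x, suData_S_U_apply hneg x] at h1
  rw [← suData_U_apply hneg x]
  omega

/-- `cocOf (a⁺ - u_a) = c_a - ∂ u_a`. -/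
theorem cocOf_jMap (hneg : (-1 : SL(2,ℤ)) ∈ Γ) (a : aSub (suData Γ hneg)) :
    cocOf hneg (aplus (a : SL(2,ℤ) ⧸ Γ → ℤ) - uu (suData Γ hneg) (a : SL(2,ℤ) ⧸ Γ → ℤ))
      = symCoc hneg a - cob (uu (suData Γ hneg) (a : SL(2,ℤ) ⧸ Γ → ℤ)) := by
  apply cocOf_eq hneg _ ((isCoc_symCoc hneg a).sub (isCoc_cob _))
  · funext x
    have h := aplus_S (suData Γ hneg) a.2 x
    rw [suData_S_apply] at h
    simp only [Pi.sub_apply, cob, aOf]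
    rw [symCoc_S]
    omega
  · funext x
    have h := uu_U (suData Γ hneg) a.2 x
    rw [suData_U_apply] at h
    simp only [Pi.sub_apply, cob, Pi.zero_apply]
    rw [symCoc_U]
    omega

/-- **symbol-side lemma**: the restriction of `c_a` to `Γ` is `bridgeB (jMap a)`. -/
theorem resCoc_symCoc (hneg : (-1 : SL(2,ℤ)) ∈ Γ) (a : aSub (suData Γ hneg)) :
    resCoc (symCoc hneg a) (isCoc_symCoc hneg a) = bridgeB hneg (jMap (suData Γ hneg) a) := by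
  refine DFunLike.ext _ _ fun γ' => ?_
  obtain ⟨γ, rfl⟩ : ∃ γ : Γ, Additive.ofMul γ = γ' := ⟨Additive.toMul γ', rfl⟩
  rw [jMap_apply, bridgeB_mk_apply, cocOf_jMap, resCoc_apply]
  simp only [Pi.sub_apply, cob]
  rw [smul_x0_of_mem γ.2, sub_self, sub_zero]

theorem bridgeB_jMap_apply (hneg : (-1 : SL(2,ℤ)) ∈ Γ) (a : aSub (suData Γ hneg)) (γ : Γ) :
    bridgeB hneg (jMap (suData Γ hneg) a) (Additive.ofMul γ)
      = symCoc hneg a (γ : SL(2,ℤ)) (x0 Γ) := by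
  rw [← resCoc_symCoc, resCoc_apply]

/-! ### the key identity -/

/-- `E = -2 · c_a`. -/
theorem Ecoc_eq (hneg : (-1 : SL(2,ℤ)) ∈ Γ) (a : aSub (suData Γ hneg)) :
    Ecoc hneg a = fun g x => -2 * symCoc hneg a g x := by
  have hE := isCoc_Ecoc hneg a
  have hc := isCoc_symCoc hneg a
  have hc2 : IsCoc (fun g x => -2 * symCoc hneg a g x) := hc.zsmul (-2)
  apply hE.ext hc2
  · funext x
    show Ecoc hneg a S x = -2 * symCoc hneg a S x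
    rw [Ecoc_S, symCoc_S]
    ring
  · funext x
    show Ecoc hneg a (S * T) x = -2 * symCoc hneg a (S * T) x
    rw [hE S T x, hc S T x, Ecoc_T, Ecoc_S, symCoc_T, symCoc_S]
    simp only [Pi.zero_apply]
    ring

/-- **Key identity, general form**:
`⟨a, Θ_Γ(k⁻¹∞, k⁻¹g⁻¹∞)⟩ = -2 · c_a g (kΓ)` for all `g, k ∈ SL(2,ℤ)`. -/
theorem keyK_gen (hneg : (-1 : SL(2,ℤ)) ∈ Γ) (a : aSub (suData Γ hneg)) (g k : SL(2,ℤ)) :
    pairT hneg a (Th Γ (k⁻¹ • eInf) ((k⁻¹ * g⁻¹) • eInf))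
      = -2 * symCoc hneg a g (k : SL(2,ℤ) ⧸ Γ) := by
  have := congrFun (congrFun (Ecoc_eq hneg a) g) (k : SL(2,ℤ) ⧸ Γ)
  rw [Ecoc_mk] at this
  exact this

/-- **Key identity (K)**: `⟨a, Θ_Γ(∞, γ⁻¹∞)⟩ = -2 · (bridgeB (jMap a)) γ` for `γ ∈ Γ`. -/
theorem keyK (hneg : (-1 : SL(2,ℤ)) ∈ Γ) (a : aSub (suData Γ hneg)) (γ : Γ) :
    pairAB (suData Γ hneg) a ((bridgeB hneg).symm
        (theta side isInv_side_SL Γ (finCross_side_SL Γ) PU eInf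
          (((γ : SL(2,ℤ))⁻¹ : SL(2,ℤ)) • eInf)))
      = -2 * bridgeB hneg (jMap (suData Γ hneg) a) (Additive.ofMul γ) := by
  have h := keyK_gen hneg a (γ : SL(2,ℤ)) 1
  rw [inv_one, one_smul, one_mul] at h
  rw [bridgeB_jMap_apply]
  exact h

/-- `Θ_Γ(∞, γ⁻¹∞)` for `γ ∈ Γ`, as an element of `Hom(Γ,ℤ)`. -/
noncomputable abbrev ThInf (Γ : Subgroup SL(2,ℤ)) (γ : Γ) : Additive Γ →+ ℤ :=
  Th Γ eInf (((γ : SL(2,ℤ))⁻¹ : SL(2,ℤ)) • eInf)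

theorem keyK' (hneg : (-1 : SL(2,ℤ)) ∈ Γ) (a : aSub (suData Γ hneg)) (γ : Γ) :
    pairT hneg a (ThInf Γ γ) = -2 * bridgeB hneg (jMap (suData Γ hneg) a) (Additive.ofMul γ) :=
  keyK hneg a γ

/-! ### consequences for the outer adjointness -/

/-- If `⟨d, Θ_Γ(∞, γ⁻¹∞)⟩ = 0` for all `γ ∈ Γ` then `j d = 0`. -/
theorem jMap_eq_zero_of_pairT (hneg : (-1 : SL(2,ℤ)) ∈ Γ) (d : aSub (suData Γ hneg))
    (h : ∀ γ : Γ, pairT hneg d (ThInf Γ γ) = 0) : jMap (suData Γ hneg) d = 0 := by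
  have h0 : bridgeB hneg (jMap (suData Γ hneg) d) = 0 := by
    refine DFunLike.ext _ _ fun γ' => ?_
    obtain ⟨γ, rfl⟩ : ∃ γ : Γ, Additive.ofMul γ = γ' := ⟨Additive.toMul γ', rfl⟩
    have := keyK' hneg d γ
    rw [h γ] at this
    show bridgeB hneg (jMap (suData Γ hneg) d) (Additive.ofMul γ) = 0
    omega
  exact (LinearEquiv.map_eq_zero_iff (bridgeB hneg)).1 h0

/-- **A linear functional on `Hom(Γ,ℤ)` which vanishes on all `Θ_Γ(∞, γ⁻¹∞)`, `γ ∈ Γ`,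
vanishes on the image `bridgeB (range jMap)` of the compactly supported classes.** -/
theorem functional_eq_zero_on_jMap (hneg : (-1 : SL(2,ℤ)) ∈ Γ)
    (F : (Additive Γ →+ ℤ) →ₗ[ℤ] ℤ) (h : ∀ γ : Γ, F (ThInf Γ γ) = 0)
    (a : aSub (suData Γ hneg)) : F (bridgeB hneg (jMap (suData Γ hneg) a)) = 0 := by
  obtain ⟨d, hd⟩ := pairAB_surjective (suData Γ hneg) (F.comp (bridgeB hneg).toLinearMap)
  have hF : ∀ ψ, pairT hneg d ψ = F ψ := by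
    intro ψ
    rw [pairT_apply, hd]
    show F (bridgeB hneg ((bridgeB hneg).symm ψ)) = F ψ
    rw [LinearEquiv.apply_symm_apply]
  have hj : jMap (suData Γ hneg) d = 0 :=
    jMap_eq_zero_of_pairT hneg d (fun γ => by rw [hF, h γ])
  rw [← hF, pairT_bridgeB, pairAB_skew, hj, map_zero, neg_zero]

/-- the same on the parabolic classes `parabolicHoms ℤ Γ ℤ` -/
theorem functional_eq_zero_on_parabolic (hneg : (-1 : SL(2,ℤ)) ∈ Γ)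
    (F : (Additive Γ →+ ℤ) →ₗ[ℤ] ℤ) (h : ∀ γ : Γ, F (ThInf Γ γ) = 0)
    (ψ : ModularCurve.Period.parabolicHoms ℤ Γ ℤ) : F (ψ : Additive Γ →+ ℤ) = 0 := by
  obtain ⟨p, rfl⟩ := (bridgeP hneg).surjective ψ
  rw [bridgeP_coe]
  obtain ⟨a, ha⟩ := p.2
  rw [← ha]
  exact functional_eq_zero_on_jMap hneg F h a

end Pair

end Fermat.Agent.GM.Bridge.KeyK
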