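/-
GATE-M (S41) / S41-D-BRIDGE-MANIN, file 5 (helper14).

The `Γ₀(M)` instances of the bridge, in the shapes of GRAPH v0 (3581):

* `lamForm0 M : Lam M →ₗ[ℤ] Lam M →ₗ[ℤ] ℤ`  (`Lam M = parabolicHoms ℤ Γ₀(M) ℤ`), unimodular, skew,
  non-degenerate mod every `n`;
* `lamForm0_resP_coresP` : `B_{Nq}(res₁ x, z) = B_N(x, cores₁ z)` for helper91's `resP` / `coresP`.
-/
import Fermat.Agent.GM.Bridge.Form
import Fermat.Agent.GM.B.Main

set_option autoImplicit false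
set_option linter.unusedSectionVars false

open scoped MatrixGroups OnePoint
open ModularGroup ModularCurve.Period CongruenceSubgroup

namespace Fermat.Agent.GM.Bridge

open Fermat.Agent.GM.PD Fermat.Agent.S16.LB.PingPong Fermat.Agent.S16.LB.PPLift
open Fermat.Agent.GM.B Fermat.Agent.GM.Amalgam Fermat.Agent.S16_helper49

/-- the finite coset space of `Γ₀(M)` -/
@[reducible] noncomputable def fintypeQuot0 (M : ℕ) [NeZero M] : Fintype (SL(2,ℤ) ⧸ Gamma0 M) :=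
  Fintype.ofFinite _

/-- **the unimodular cup form on `Lam M = parabolicHoms ℤ Γ₀(M) ℤ`** -/
noncomputable def lamForm0 (M : ℕ) [NeZero M] :
    parabolicHoms ℤ (Gamma0 M) ℤ →ₗ[ℤ] parabolicHoms ℤ (Gamma0 M) ℤ →ₗ[ℤ] ℤ :=
  @lamForm (Gamma0 M) (fintypeQuot0 M) (Classical.decEq _) (neg_one_mem_Gamma0 M)

theorem lamForm0_bijective (M : ℕ) [NeZero M] : Function.Bijective (lamForm0 M) :=
  @lamForm_bijective (Gamma0 M) (fintypeQuot0 M) (Classical.decEq _) (neg_one_mem_Gamma0 M)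

theorem lamForm0_skew (M : ℕ) [NeZero M] (x y : parabolicHoms ℤ (Gamma0 M) ℤ) :
    lamForm0 M x y = - lamForm0 M y x :=
  @lamForm_skew (Gamma0 M) (fintypeQuot0 M) (Classical.decEq _) (neg_one_mem_Gamma0 M) x y

theorem lamForm0_left_nondeg_mod (M : ℕ) [NeZero M] (n : ℕ) (x : parabolicHoms ℤ (Gamma0 M) ℤ)
    (hx : ∀ y, ((lamForm0 M x y : ℤ) : ZMod n) = 0) : ∃ z, x = (n : ℤ) • z :=
  @lamForm_left_nondeg_mod (Gamma0 M) (fintypeQuot0 M) (Classical.decEq _)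
    (neg_one_mem_Gamma0 M) n x hx

/-! ### the transversal of `coresSys` -/

section Cores

variable {N q : ℕ} [Fact q.Prime]

theorem Gamma0_mul_le (N q : ℕ) : Gamma0 (N * q) ≤ Gamma0 N := by
  intro g hg
  have h1 := dvd_of_mem_Gamma0 (⟨g, hg⟩ : Gamma0 (N * q))
  apply mem_Gamma0_of_dvd
  refine dvd_trans ?_ h1
  push_cast
  exact dvd_mul_right _ _

/-- lower-left entry of `A * B⁻¹` -/
theorem mul_inv_10 (A B : SL(2,ℤ)) : (A * B⁻¹) 1 0 = A 1 0 * B 1 1 - A 1 1 * B 1 0 := by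
  rw [Matrix.SpecialLinearGroup.coe_mul, Matrix.SpecialLinearGroup.SL2_inv_expl, Matrix.mul_apply,
    Fin.sum_univ_two]
  simp
  ring

variable (hqN : ¬ q ∣ N) (b₀ d₀ : ℤ) (hbd : (q : ℤ) * d₀ - N * b₀ = 1)

theorem coresSys_a (x : OnePoint (ZMod q)) :
    (coresSys hqN b₀ d₀ hbd).a x = embR ((rC N q b₀ d₀ hbd x : Gamma0 N) : SL(2,ℤ)) := by
  have h := dlt_mul_rC N q b₀ d₀ hbd x
  show (dlt q)⁻¹ * embR ((gC N q b₀ d₀ hbd x : Gamma0 N) : SL(2,ℤ)) * (heckeSys hqN).a x = _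
  rw [mul_assoc, inv_mul_eq_iff_eq_mul]
  exact h.symm

theorem repC_10 (j : ℕ) : (repC N q b₀ d₀ hbd j) 1 0 = (N : ℤ) := rfl

theorem repC_11 (j : ℕ) : (repC N q b₀ d₀ hbd j) 1 1 = (N : ℤ) * j + d₀ * q := rfl

theorem one_10 : (1 : SL(2,ℤ)) 1 0 = 0 := by simp

theorem one_11 : (1 : SL(2,ℤ)) 1 1 = 1 := by simp

include hqN in
theorem rC_distinct [NeZero N] (x y : OnePoint (ZMod q))
    (h : ((rC N q b₀ d₀ hbd x : Gamma0 N) : SL(2,ℤ))
      * ((rC N q b₀ d₀ hbd y : Gamma0 N) : SL(2,ℤ))⁻¹ ∈ Gamma0 (N * q)) : x = y := by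
  have hq : (q : ℤ) ≠ 0 := by exact_mod_cast (Fact.out : q.Prime).ne_zero
  have hN : (N : ℤ) ≠ 0 := by exact_mod_cast NeZero.ne N
  have hdvd := dvd_of_mem_Gamma0 (⟨_, h⟩ : Gamma0 (N * q))
  simp only at hdvd
  rw [mul_inv_10] at hdvd
  have hqN' : ¬ (q : ℤ) ∣ (N : ℤ) := by
    intro h; exact hqN (by exact_mod_cast h)
  have hprime : Prime (q : ℤ) := Nat.prime_iff_prime_int.mp (Fact.out : q.Prime)
  induction x using OnePoint.rec with
  | infty =>
    induction y using OnePoint.rec with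
    | infty => rfl
    | coe k =>
      exfalso
      have e : ((rC N q b₀ d₀ hbd (∞ : OnePoint (ZMod q)) : Gamma0 N) : SL(2,ℤ)) = 1 := rfl
      have e' : ((rC N q b₀ d₀ hbd ((k : ZMod q) : OnePoint (ZMod q)) : Gamma0 N) : SL(2,ℤ))
          = repC N q b₀ d₀ hbd k.val := rfl
      rw [e, e', one_10, one_11, repC_10, repC_11] at hdvd
      obtain ⟨t, ht⟩ := hdvd
      push_cast at ht
      have : (q : ℤ) ∣ 1 := ⟨-t, by
        have h2 : (N : ℤ) * 1 = N * ((q : ℤ) * -t) := by linear_combination -ht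
        exact mul_left_cancel₀ hN h2⟩
      exact hprime.not_dvd_one this
  | coe j =>
    induction y using OnePoint.rec with
    | infty =>
      exfalso
      have e : ((rC N q b₀ d₀ hbd (∞ : OnePoint (ZMod q)) : Gamma0 N) : SL(2,ℤ)) = 1 := rfl
      have e' : ((rC N q b₀ d₀ hbd ((j : ZMod q) : OnePoint (ZMod q)) : Gamma0 N) : SL(2,ℤ))
          = repC N q b₀ d₀ hbd j.val := rfl
      rw [e, e', one_10, one_11, repC_10, repC_11] at hdvd
      obtain ⟨t, ht⟩ := hdvd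
      push_cast at ht
      have : (q : ℤ) ∣ 1 := ⟨t, by
        have h2 : (N : ℤ) * 1 = N * ((q : ℤ) * t) := by linear_combination ht
        exact mul_left_cancel₀ hN h2⟩
      exact hprime.not_dvd_one this
    | coe k =>
      have e : ((rC N q b₀ d₀ hbd ((j : ZMod q) : OnePoint (ZMod q)) : Gamma0 N) : SL(2,ℤ))
          = repC N q b₀ d₀ hbd j.val := rfl
      have e' : ((rC N q b₀ d₀ hbd ((k : ZMod q) : OnePoint (ZMod q)) : Gamma0 N) : SL(2,ℤ))
          = repC N q b₀ d₀ hbd k.val := rfl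
      rw [e, e', repC_10, repC_11, repC_10, repC_11] at hdvd
      -- `N q ∣ N² (k - j)`
      obtain ⟨t, ht⟩ := hdvd
      push_cast at ht
      have h3 : (q : ℤ) ∣ (N : ℤ) * (((k.val : ℕ) : ℤ) - ((j.val : ℕ) : ℤ)) := ⟨t, by
        have h2 : (N : ℤ) * ((N : ℤ) * (((k.val : ℕ) : ℤ) - ((j.val : ℕ) : ℤ)))
            = N * ((q : ℤ) * t) := by
          linear_combination ht
        exact mul_left_cancel₀ hN h2⟩
      have h4 : (q : ℤ) ∣ ((k.val : ℕ) : ℤ) - ((j.val : ℕ) : ℤ) :=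
        (hprime.dvd_or_dvd h3).resolve_left hqN'
      have h5 : ((((k.val : ℕ) : ℤ) - ((j.val : ℕ) : ℤ) : ℤ) : ZMod q) = 0 :=
        (ZMod.intCast_zmod_eq_zero_iff_dvd _ q).2 h4
      have h6 : k = j := by
        rw [Int.cast_sub, Int.cast_natCast, Int.cast_natCast, ZMod.natCast_zmod_val,
          ZMod.natCast_zmod_val] at h5
        exact sub_eq_zero.mp h5
      rw [h6]

end Cores

/-! ### adjointness of `res₁` and `cores₁` -/

section Adj

variable {N q : ℕ} [Fact q.Prime] [NeZero N] [NeZero (N * q)]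

/-- **`B_{Nq}(res₁ x, z) = B_N(x, cores₁ z)`** (helper91's `resP`, `coresP`). -/
theorem lamForm0_resP_coresP (hqN : ¬ q ∣ N) (x : parabolicHoms ℤ (Gamma0 N) ℤ)
    (z : parabolicHoms ℤ (Gamma0 (N * q)) ℤ) :
    lamForm0 (N * q) (resP ℤ N q x) z = lamForm0 N x (coresP ℤ hqN z) := by
  let _ : Fintype (SL(2,ℤ) ⧸ Gamma0 N) := fintypeQuot0 N
  let _ : Fintype (SL(2,ℤ) ⧸ Gamma0 (N * q)) := fintypeQuot0 (N * q)
  let _ : DecidableEq (SL(2,ℤ) ⧸ Gamma0 N) := Classical.decEq _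
  let _ : DecidableEq (SL(2,ℤ) ⧸ Gamma0 (N * q)) := Classical.decEq _
  have : Nonempty (coresSys' (N := N) (q := q) hqN).ι :=
    ⟨(∞ : OnePoint (ZMod q))⟩
  exact lamForm_res_cores (Gamma0_mul_le N q) (neg_one_mem_Gamma0 (N * q)) embR_injective
    (coresSys' hqN)
    (fun i => ((rC N q (bez hqN).1 (bez hqN).2 (bez_spec hqN) i : Gamma0 N) : SL(2,ℤ)))
    (fun i => coresSys_a hqN _ _ _ i) (fun i => SetLike.coe_mem _)
    (fun i j h => rC_distinct hqN _ _ _ i j h)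
    x (resP ℤ N q x)
    (fun γ' => by
      show res ℤ N q (x : Additive (Gamma0 N) →+ ℤ) (Additive.ofMul γ') = _
      rw [res_apply]
      congr 2
      exact Subtype.ext (degenOne_coe γ'))
    z (coresP ℤ hqN z) rfl

end Adj

end Fermat.Agent.GM.Bridge
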